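import Mathlib

/-!
The algebra of a line bundle on a product of two proper varieties over a parameter ring: affine
covers read inside the function fields, boxes inside their tensor products, and a bundle given by
rank one transition matrices.
-/

set_option autoImplicit false
set_option linter.unusedSectionVars false

noncomputable section

universe u

namespace FLTAgent.AbScheme.Cube

open scoped TensorProduct Matrix

variable {K : Type u} [Field K]

/-- A finite affine cover of a proper variety read in its function field. -/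
structure CoverModel (K F : Type u) [Field K] [Field F] [Algebra K F] : Type (u + 1) where
  /-- The charts. -/
  ι : Type u
  [fin : Fintype ι]
  /-- A chart whose complement is cut out by the equations `h`. -/
  o : ι
  /-- The coordinate rings. -/
  C : ι → Subalgebra K F
  /-- The equations of the complement of the chart `o`. -/
  h : ι → F
  h_mem : ∀ i, h i ∈ C i
  h_inv : ∀ i, (h i)⁻¹ ∈ C i ⊔ C o
  h_ne : ∀ i, h i ≠ 0
  bounded : ∀ i, ∀ x ∈ C i ⊔ C o, ∃ m : ℕ, h i ^ m * x ∈ C i
  const : ∀ x, (∀ i, x ∈ C i) → x ∈ (⊥ : Subalgebra K F)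
  finite : ∀ m : ℕ, FiniteDimensional K
    ↥(⨅ i, (C i).toSubmodule.comap (LinearMap.mulLeft K (h i ^ m)))
  /-- The chart of the base point. -/
  base : ι
  /-- The base point. -/
  ev : C base →ₐ[K] K

attribute [instance] CoverModel.fin

variable {F G : Type u} [Field F] [Algebra K F] [Field G] [Algebra K G]

/-- The ambient ring of the boxes over a parameter algebra. -/
abbrev Amb (K F G S : Type u) [Field K] [Field F] [Algebra K F] [Field G] [Algebra K G]
    [CommRing S] [Algebra K S] : Type u := (F ⊗[K] G) ⊗[K] S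

/-- The ring of a box. -/
def boxRing (A : Subalgebra K F) (B : Subalgebra K G) (S : Type u) [CommRing S] [Algebra K S] :
    Subalgebra K (Amb K F G S) :=
  (Algebra.TensorProduct.map (Algebra.TensorProduct.map A.val B.val) (AlgHom.id K S)).range

/-- The ring of a chart of one factor. -/
def sideRing (A : Subalgebra K F) (S : Type u) [CommRing S] [Algebra K S] :
    Subalgebra K (F ⊗[K] S) :=
  (Algebra.TensorProduct.map A.val (AlgHom.id K S)).range

/-- Change of the parameter algebra. -/
def ambMap {R S : Type u} [CommRing R] [Algebra K R] [CommRing S] [Algebra K S] (φ : R →ₐ[K] S) :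
    Amb K F G R →ₐ[K] Amb K F G S :=
  Algebra.TensorProduct.map (AlgHom.id K (F ⊗[K] G)) φ

variable (MX : CoverModel K F) (MY : CoverModel K G)

/-- The boxes. -/
abbrev Box : Type u := MX.ι × MY.ι

/-- The ring of a box. -/
def ring₁ (a : Box MX MY) (S : Type u) [CommRing S] [Algebra K S] :
    Subalgebra K (Amb K F G S) :=
  boxRing (MX.C a.1) (MY.C a.2) S

/-- The ring of the intersection of two boxes. -/
def ring₂ (a b : Box MX MY) (S : Type u) [CommRing S] [Algebra K S] :
    Subalgebra K (Amb K F G S) :=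
  boxRing (MX.C a.1 ⊔ MX.C b.1) (MY.C a.2 ⊔ MY.C b.2) S

/-- A line bundle on the product over a parameter algebra, by rank one matrices. -/
structure Bundle (R : Type u) [CommRing R] [Algebra K R] : Type (u + 1) where
  /-- The number of generators in a box. -/
  n : Box MX MY → ℕ
  /-- The transition from the first box to the second; the diagonal ones are the projectors. -/
  T : ∀ a b, Matrix (Fin (n b)) (Fin (n a)) (Amb K F G R)
  mem_self : ∀ a k l, T a a k l ∈ ring₁ MX MY a R
  mem : ∀ a b k l, T a b k l ∈ ring₂ MX MY a b R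
  trans : ∀ a b c, T b c * T a b = T a c
  trace : ∀ a, (T a a).trace = 1
  rankOne : ∀ a b k k' l l', T a b k l * T a b k' l' = T a b k l' * T a b k' l

variable {MX MY} {R : Type u} [CommRing R] [Algebra K R] (P : Bundle MX MY R)

/-- A trivialisation after a change of parameters: a nowhere vanishing section with its inverse. -/
structure Triv {S : Type u} [CommRing S] [Algebra K S] (φ : R →ₐ[K] S) : Type u where
  /-- The section. -/
  v : ∀ a, Fin (P.n a) → Amb K F G S
  /-- The inverse section. -/
  w : ∀ a, Fin (P.n a) → Amb K F G S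
  v_mem : ∀ a k, v a k ∈ ring₁ MX MY a S
  w_mem : ∀ a k, w a k ∈ ring₁ MX MY a S
  v_rel : ∀ a b, (P.T a b).map (ambMap φ) *ᵥ v a = v b
  w_rel : ∀ a b, w b ᵥ* (P.T a b).map (ambMap φ) = w a
  one : ∀ a, w a ⬝ᵥ v a = 1

/-- Evaluation of the second factor at its base point, as a relation. -/
def EvY (A : Subalgebra K F) (x : Amb K F G R) (y : F ⊗[K] R) : Prop :=
  ∃ t : (A ⊗[K] MY.C MY.base) ⊗[K] R,
    Algebra.TensorProduct.map (Algebra.TensorProduct.map A.val (MY.C MY.base).val)
      (AlgHom.id K R) t = x ∧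
    Algebra.TensorProduct.map ((Algebra.TensorProduct.rid K K F).toAlgHom.comp
      (Algebra.TensorProduct.map A.val MY.ev)) (AlgHom.id K R) t = y

/-- Evaluation of the first factor at its base point, as a relation. -/
def EvX (B : Subalgebra K G) (x : Amb K F G R) (y : G ⊗[K] R) : Prop :=
  ∃ t : (MX.C MX.base ⊗[K] B) ⊗[K] R,
    Algebra.TensorProduct.map (Algebra.TensorProduct.map (MX.C MX.base).val B.val)
      (AlgHom.id K R) t = x ∧
    Algebra.TensorProduct.map ((Algebra.TensorProduct.lid K G).toAlgHom.comp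
      (Algebra.TensorProduct.map MX.ev B.val)) (AlgHom.id K R) t = y

/-- The bundle is trivial on the face where the second factor is the base point. -/
def FaceY : Prop :=
  ∃ (v w : ∀ i, Fin (P.n (i, MY.base)) → F ⊗[K] R)
    (T' : ∀ i j, Matrix (Fin (P.n (j, MY.base))) (Fin (P.n (i, MY.base))) (F ⊗[K] R)),
    (∀ i j k l, EvY (MY := MY) (MX.C i ⊔ MX.C j) (P.T (i, MY.base) (j, MY.base) k l) (T' i j k l)) ∧
    (∀ i k, v i k ∈ sideRing (MX.C i) R ∧ w i k ∈ sideRing (MX.C i) R) ∧
    (∀ i j, T' i j *ᵥ v i = v j ∧ w j ᵥ* T' i j = w i) ∧ ∀ i, w i ⬝ᵥ v i = 1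

/-- The bundle is trivial on the face where the first factor is the base point. -/
def FaceX : Prop :=
  ∃ (v w : ∀ i, Fin (P.n (MX.base, i)) → G ⊗[K] R)
    (T' : ∀ i j, Matrix (Fin (P.n (MX.base, j))) (Fin (P.n (MX.base, i))) (G ⊗[K] R)),
    (∀ i j k l, EvX (MX := MX) (MY.C i ⊔ MY.C j) (P.T (MX.base, i) (MX.base, j) k l) (T' i j k l)) ∧
    (∀ i k, v i k ∈ sideRing (MY.C i) R ∧ w i k ∈ sideRing (MY.C i) R) ∧
    (∀ i j, T' i j *ᵥ v i = v j ∧ w j ᵥ* T' i j = w i) ∧ ∀ i, w i ⬝ᵥ v i = 1

end FLTAgent.AbScheme.Cube
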