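import Fermat.Agent.AbScheme.Cube.Basic

/-!
The sections of a bundle on a product are the solutions of finitely many linear equations with
coefficients in the parameters.
-/

set_option autoImplicit false
set_option linter.unusedSectionVars false

noncomputable section

universe u

namespace FLTAgent.AbScheme.Cube

open scoped TensorProduct Matrix

variable {K F G : Type u} [Field K] [Field F] [Algebra K F] [Field G] [Algebra K G]

/-- The functions with bounded poles outside the distinguished chart. -/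
def CoverModel.poles (M : CoverModel K F) (m : ℕ) : Submodule K F :=
  ⨅ i, (Subalgebra.toSubmodule (M.C i)).comap (LinearMap.mulLeft K (M.h i ^ m))

instance (M : CoverModel K F) (m : ℕ) : FiniteDimensional K (M.poles m) := M.finite m

theorem sliceL_mul_one_tmul {V S : Type u} [CommRing V] [Algebra K V] [CommRing S] [Algebra K S]
    (ν : V →ₗ[K] K) (y : V ⊗[K] S) (s : S) :
    sliceL ν (y * ((1 : V) ⊗ₜ[K] s)) = sliceL ν y * s := by
  induction y using TensorProduct.induction_on with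
  | zero => simp
  | tmul v t => simp [Algebra.TensorProduct.tmul_mul_tmul]
  | add a b ha hb => simp only [add_mul, map_add, ha, hb]

theorem sliceL_ambMap {R S : Type u} [CommRing R] [Algebra K R] [CommRing S] [Algebra K S]
    (φ : R →ₐ[K] S) (ν : F ⊗[K] G →ₗ[K] K) (y : Amb K F G R) :
    sliceL ν (ambMap φ y) = φ (sliceL ν y) := by
  induction y using TensorProduct.induction_on with
  | zero => simp
  | tmul v t => simp
  | add a b ha hb => simp only [map_add, ha, hb]

variable {MX : CoverModel K F} {MY : CoverModel K G} {R : Type u} [CommRing R] [Algebra K R]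

/-- Functions on an overlap with the distinguished box have bounded poles. -/
theorem exists_bound (a : Box MX MY) {x : Amb K F G R}
    (hx : x ∈ ring₂ MX MY a (MX.o, MY.o) R) :
    ∃ m : ℕ, ∀ m' ≥ m,
      ((MX.h a.1 ^ m') ⊗ₜ[K] (MY.h a.2 ^ m')) ⊗ₜ[K] (1 : R) * x ∈ ring₁ MX MY a R :=
  boxRing_induction (p := fun x => ∃ m : ℕ, ∀ m' ≥ m,
      ((MX.h a.1 ^ m') ⊗ₜ[K] (MY.h a.2 ^ m')) ⊗ₜ[K] (1 : R) * x ∈ ring₁ MX MY a R)
    ⟨0, fun m _ => by rw [mul_zero]; exact zero_mem _⟩
    (fun f hf g hg s => by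
      obtain ⟨m₁, h₁⟩ := MX.bounded a.1 f hf
      obtain ⟨m₂, h₂⟩ := MY.bounded a.2 g hg
      refine ⟨max m₁ m₂, fun m' hm' => ?_⟩
      rw [Algebra.TensorProduct.tmul_mul_tmul, Algebra.TensorProduct.tmul_mul_tmul]
      refine tmul_mem_boxRing ?_ ?_ _
      · rw [← Nat.sub_add_cancel ((le_max_left m₁ m₂).trans hm'), pow_add, mul_assoc]
        exact mul_mem (pow_mem (MX.h_mem _) _) h₁
      · rw [← Nat.sub_add_cancel ((le_max_right m₁ m₂).trans hm'), pow_add, mul_assoc]
        exact mul_mem (pow_mem (MY.h_mem _) _) h₂)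
    (fun x y ⟨m₁, h₁⟩ ⟨m₂, h₂⟩ => ⟨max m₁ m₂, fun m' hm' => by
      rw [mul_add]
      exact add_mem (h₁ m' ((le_max_left _ _).trans hm')) (h₂ m' ((le_max_right _ _).trans hm'))⟩)
    hx

variable (P : Bundle MX MY R)

/-- The distinguished box. -/
abbrev obox : Box MX MY := (MX.o, MY.o)

theorem exists_poleBound : ∃ m : ℕ, ∀ (a : Box MX MY) k l,
    ((MX.h a.1 ^ m) ⊗ₜ[K] (MY.h a.2 ^ m)) ⊗ₜ[K] (1 : R) * P.T a obox k l ∈
      ring₁ MX MY a R := by
  choose f hf using fun (q : Σ a : Box MX MY, Fin (P.n obox) × Fin (P.n a)) =>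
    exists_bound q.1 (P.mem q.1 obox q.2.1 q.2.2)
  exact ⟨Finset.univ.sup f, fun a k l => hf ⟨a, k, l⟩ _ (Finset.le_sup (Finset.mem_univ _))⟩

/-- A bound for the poles of the sections. -/
def poleOrder : ℕ := (exists_poleBound P).choose

/-- The indices of the coordinates of a section. -/
abbrev Ix : Type :=
  Fin (P.n obox) × Fin (Module.finrank K (MX.poles (poleOrder P))) ×
    Fin (Module.finrank K (MY.poles (poleOrder P)))

/-- The coordinate functions. -/
def eps (l : Fin (Module.finrank K (MX.poles (poleOrder P))))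
    (m : Fin (Module.finrank K (MY.poles (poleOrder P)))) : F ⊗[K] G :=
  ((Module.finBasis K (MX.poles (poleOrder P)) l : F)) ⊗ₜ[K]
    ((Module.finBasis K (MY.poles (poleOrder P)) m : G))

theorem exists_lam (l : Fin (Module.finrank K (MX.poles (poleOrder P))))
    (m : Fin (Module.finrank K (MY.poles (poleOrder P)))) :
    ∃ ν : F ⊗[K] G →ₗ[K] K, ∀ f : MX.poles (poleOrder P), ∀ g : MY.poles (poleOrder P),
      ν ((f : F) ⊗ₜ[K] (g : G)) =
        (Module.finBasis K (MX.poles (poleOrder P))).coord l f *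
          (Module.finBasis K (MY.poles (poleOrder P))).coord m g := by
  obtain ⟨a, ha⟩ := LinearMap.exists_extend ((Module.finBasis K (MX.poles (poleOrder P))).coord l)
  obtain ⟨b, hb⟩ := LinearMap.exists_extend ((Module.finBasis K (MY.poles (poleOrder P))).coord m)
  refine ⟨b ∘ₗ sliceL a, fun f g => ?_⟩
  rw [← LinearMap.congr_fun ha f, ← LinearMap.congr_fun hb g]
  simp

/-- The coordinate functionals. -/
def lam (l : Fin (Module.finrank K (MX.poles (poleOrder P))))
    (m : Fin (Module.finrank K (MY.poles (poleOrder P)))) : F ⊗[K] G →ₗ[K] K :=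
  (exists_lam P l m).choose

theorem lam_tmul (l m) (f : MX.poles (poleOrder P)) (g : MY.poles (poleOrder P)) :
    lam P l m ((f : F) ⊗ₜ[K] (g : G)) = (Module.finBasis K (MX.poles (poleOrder P))).coord l f *
      (Module.finBasis K (MY.poles (poleOrder P))).coord m g :=
  (exists_lam P l m).choose_spec f g

variable {S S' : Type u} [CommRing S] [Algebra K S] [CommRing S'] [Algebra K S']

/-- The coordinates of a vector on the distinguished box. -/
def coords (x : Fin (P.n obox) → Amb K F G S) : Ix P → S :=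
  fun p => sliceL (lam P p.2.1 p.2.2) (x p.1)

/-- The vector with given coordinates. -/
def voSol (s : Ix P → S) : Fin (P.n obox) → Amb K F G S :=
  fun k => ∑ q, eps P q.1 q.2 ⊗ₜ[K] s (k, q)

/-- The transported vector. -/
def vsec (φ : R →ₐ[K] S) (s : Ix P → S) (a : Box MX MY) : Fin (P.n a) → Amb K F G S :=
  (P.T obox a).map (ambMap φ) *ᵥ voSol P s

theorem coords_voSol (s : Ix P → S) : coords P (voSol P s) = s := by
  funext p
  obtain ⟨k, l, m⟩ := p
  simp only [coords, voSol, map_sum, sliceL_tmul, eps, lam_tmul]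
  rw [Finset.sum_eq_single (l, m)]
  · simp
  · rintro ⟨l', m'⟩ _ hne
    rcases eq_or_ne l l' with rfl | hl
    · have hm : m ≠ m' := fun h => hne (by rw [h])
      simp [hm]
    · simp [hl]
  · simp

theorem voSol_coords {x : Fin (P.n obox) → Amb K F G S}
    (hx : ∀ k, x k ∈ tsub (tsub (MX.poles (poleOrder P)) (MY.poles (poleOrder P))) ⊤) :
    voSol P (coords P x) = x := by
  funext k
  show ∑ q : Fin _ × Fin _, eps P q.1 q.2 ⊗ₜ[K] sliceL (lam P q.1 q.2) (x k) = x k
  refine tsub_induction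
    (p := fun y => ∑ q : Fin _ × Fin _, eps P q.1 q.2 ⊗ₜ[K] sliceL (lam P q.1 q.2) y = y)
    (by simp only [map_zero, TensorProduct.tmul_zero, Finset.sum_const_zero])
    (fun y hy s _ => ?_) (fun a b ha hb => ?_) (hx k)
  · simp only [sliceL_tmul, TensorProduct.tmul_smul, TensorProduct.smul_tmul', ← TensorProduct.sum_tmul]
    congr 1
    refine tsub_induction (p := fun y => ∑ q : Fin _ × Fin _, lam P q.1 q.2 y • eps P q.1 q.2 = y)
      (by simp only [map_zero, zero_smul, Finset.sum_const_zero])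
      (fun f hf g hg => ?_) (fun a b ha hb => ?_) hy
    · have ef := congrArg Subtype.val
        ((Module.finBasis K (MX.poles (poleOrder P))).sum_repr ⟨f, hf⟩)
      have eg := congrArg Subtype.val
        ((Module.finBasis K (MY.poles (poleOrder P))).sum_repr ⟨g, hg⟩)
      simp only [AddSubmonoidClass.coe_finsetSum, SetLike.val_smul] at ef eg
      conv_rhs => rw [← ef, ← eg]
      rw [Fintype.sum_prod_type, TensorProduct.sum_tmul]
      refine Finset.sum_congr rfl fun l _ => ?_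
      rw [TensorProduct.tmul_sum]
      refine Finset.sum_congr rfl fun m _ => ?_
      rw [show lam P l m (f ⊗ₜ[K] g) = _ from lam_tmul P l m ⟨f, hf⟩ ⟨g, hg⟩, eps,
        TensorProduct.smul_tmul_smul]
      rfl
    · simp only [map_add, add_smul, Finset.sum_add_distrib, ha, hb]
  · simp only [map_add, TensorProduct.tmul_add, Finset.sum_add_distrib, ha, hb]

variable {P} in
theorem IsSect.mem_poles {φ : R →ₐ[K] S} {v : ∀ a, Fin (P.n a) → Amb K F G S}
    (hv : IsSect P φ v) (k : Fin (P.n obox)) :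
    v obox k ∈ tsub (tsub (MX.poles (poleOrder P)) (MY.poles (poleOrder P))) ⊤ := by
  have : Nonempty MX.ι := ⟨MX.base⟩
  have : Nonempty MY.ι := ⟨MY.base⟩
  refine mem_tsub_left.2 fun μ => mem_tsub_iInf.2 fun i j => ?_
  set m := poleOrder P with hm
  have hy : ((MX.h i ^ m) ⊗ₜ[K] (MY.h j ^ m)) ⊗ₜ[K] (1 : S) * v obox k ∈
      ring₁ MX MY (i, j) S := by
    rw [← hv.2 (i, j) obox]
    simp only [Matrix.mulVec, dotProduct, Finset.mul_sum, Matrix.map_apply, ← mul_assoc]
    refine sum_mem fun l _ => mul_mem ?_ (hv.1 _ l)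
    have h := ambMap_mem φ ((exists_poleBound P).choose_spec (i, j) k l)
    rw [map_mul, ambMap_tmul, map_one] at h
    exact h
  have hinv : v obox k = ((MX.h i ^ m)⁻¹ ⊗ₜ[K] (MY.h j ^ m)⁻¹) ⊗ₜ[K] (1 : S) *
      (((MX.h i ^ m) ⊗ₜ[K] (MY.h j ^ m)) ⊗ₜ[K] (1 : S) * v obox k) := by
    rw [← mul_assoc, Algebra.TensorProduct.tmul_mul_tmul, Algebra.TensorProduct.tmul_mul_tmul,
      inv_mul_cancel₀ (pow_ne_zero _ (MX.h_ne i)), inv_mul_cancel₀ (pow_ne_zero _ (MY.h_ne j)),
      one_mul, ← Algebra.TensorProduct.one_def, ← Algebra.TensorProduct.one_def, one_mul]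
  rw [hinv]
  refine mem_tsub_left.1 (boxRing_induction (p := fun y =>
      ((MX.h i ^ m)⁻¹ ⊗ₜ[K] (MY.h j ^ m)⁻¹) ⊗ₜ[K] (1 : S) * y ∈ tsub (tsub
        ((Subalgebra.toSubmodule (MX.C i)).comap (LinearMap.mulLeft K (MX.h i ^ m)))
        ((Subalgebra.toSubmodule (MY.C j)).comap (LinearMap.mulLeft K (MY.h j ^ m)))) ⊤) ?_ ?_ ?_ hy) μ
  · rw [mul_zero]; exact zero_mem _
  · intro f hf g hg s
    rw [Algebra.TensorProduct.tmul_mul_tmul, Algebra.TensorProduct.tmul_mul_tmul]
    refine tmul_mem_tsub (tmul_mem_tsub ?_ ?_) Submodule.mem_top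
    · show MX.h i ^ m * ((MX.h i ^ m)⁻¹ * f) ∈ MX.C i
      rwa [mul_inv_cancel_left₀ (pow_ne_zero _ (MX.h_ne i))]
    · show MY.h j ^ m * ((MY.h j ^ m)⁻¹ * g) ∈ MY.C j
      rwa [mul_inv_cancel_left₀ (pow_ne_zero _ (MY.h_ne j))]
  · intro a b ha hb
    rw [mul_add]
    exact add_mem ha hb

/-- The coefficient of a coordinate in a slice of the transported vector. -/
def coef (ν : F ⊗[K] G →ₗ[K] K) (a : Box MX MY) (k : Fin (P.n a)) (p : Ix P) : R :=
  sliceL ν (P.T obox a k p.1 * (eps P p.2.1 p.2.2 ⊗ₜ[K] (1 : R)))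

theorem sliceL_vsec (φ : R →ₐ[K] S) (s : Ix P → S) (ν : F ⊗[K] G →ₗ[K] K) (a : Box MX MY)
    (k : Fin (P.n a)) : sliceL ν (vsec P φ s a k) = ∑ p, φ (coef P ν a k p) * s p := by
  simp only [vsec, Matrix.mulVec, dotProduct, voSol, Finset.mul_sum, map_sum, Matrix.map_apply]
  rw [Fintype.sum_prod_type]
  refine Finset.sum_congr rfl fun l _ => Finset.sum_congr rfl fun q _ => ?_
  rw [show eps P q.1 q.2 ⊗ₜ[K] s (l, q) =
      ambMap φ (eps P q.1 q.2 ⊗ₜ[K] (1 : R)) * ((1 : F ⊗[K] G) ⊗ₜ[K] s (l, q)) by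
    rw [ambMap_tmul, map_one, Algebra.TensorProduct.tmul_mul_tmul, mul_one, one_mul],
    ← mul_assoc, ← map_mul, sliceL_mul_one_tmul, sliceL_ambMap]
  rfl

theorem sliceL_voSol (φ : R →ₐ[K] S) (s : Ix P → S) (ν : F ⊗[K] G →ₗ[K] K) (k : Fin (P.n obox)) :
    sliceL ν (voSol P s k) =
      ∑ p : Ix P, φ (if p.1 = k then algebraMap K R (ν (eps P p.2.1 p.2.2)) else 0) * s p := by
  simp only [voSol, map_sum, sliceL_tmul]
  rw [Fintype.sum_prod_type (f := fun p : Ix P => φ _ * s p), Finset.sum_eq_single k]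
  · simp [Algebra.smul_def]
  · intro l _ hl
    simp [hl]
  · simp

/-- The linear conditions on the coordinates of a section. -/
def rows : Set (Ix P → R) :=
  {r | ∃ ν a k, (∀ x ∈ tsub (Subalgebra.toSubmodule (MX.C (a : Box MX MY).1))
        (Subalgebra.toSubmodule (MY.C a.2)), ν x = 0) ∧ r = fun p => coef P ν a k p} ∪
  {r | ∃ ν k, r = fun p => coef P ν obox k p -
      (if p.1 = k then algebraMap K R (ν (eps P p.2.1 p.2.2)) else 0)}

/-- Coordinates satisfying the conditions. -/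
def IsSol (φ : R →ₐ[K] S) (s : Ix P → S) : Prop := ∀ r ∈ rows P, ∑ p, φ (r p) * s p = 0

variable {P} in
theorem IsSol.map {φ : R →ₐ[K] S} {s : Ix P → S} (h : IsSol P φ s) (ψ : S →ₐ[K] S') :
    IsSol P (ψ.comp φ) fun p => ψ (s p) := fun r hr => by
  simp only [AlgHom.comp_apply, ← map_mul, ← map_sum, h r hr, map_zero]

theorem voSol_eq_of_isSol {φ : R →ₐ[K] S} {s : Ix P → S} (h : IsSol P φ s) :
    vsec P φ s obox = voSol P s := by
  funext k
  refine ext_sliceL fun ν => ?_
  rw [sliceL_vsec, sliceL_voSol P φ, ← sub_eq_zero, ← Finset.sum_sub_distrib]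
  have := h _ (Or.inr ⟨ν, k, rfl⟩)
  rw [← this]
  exact Finset.sum_congr rfl fun p _ => by rw [map_sub, sub_mul]

theorem IsSol.isSect {φ : R →ₐ[K] S} {s : Ix P → S} (h : IsSol P φ s) :
    IsSect P φ (vsec P φ s) := by
  refine ⟨fun a k => mem_boxRing.2 (mem_tsub_left.2 fun μ => ?_), fun a b => ?_⟩
  · refine (Subspace.forall_mem_dualAnnihilator_apply_eq_zero_iff _ _).1 fun ν hν => ?_
    rw [apply_sliceR, sliceL_vsec,
      h _ (Or.inl ⟨ν, a, k, (Submodule.mem_dualAnnihilator ν).1 hν, rfl⟩), map_zero]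
  · simp only [vsec, Matrix.mulVec_mulVec, ← Matrix.map_mul, P.trans]

variable {P} in
theorem IsSect.isSol {φ : R →ₐ[K] S} {v : ∀ a, Fin (P.n a) → Amb K F G S}
    (hv : IsSect P φ v) :
    IsSol P φ (coords P (v obox)) ∧ vsec P φ (coords P (v obox)) = v := by
  have he : vsec P φ (coords P (v obox)) = v := funext fun a => by
    rw [vsec, voSol_coords P hv.mem_poles, hv.2]
  refine ⟨?_, he⟩
  rintro r (⟨ν, a, k, hν, rfl⟩ | ⟨ν, k, rfl⟩)
  · rw [← sliceL_vsec, he]
    refine tsub_induction (p := fun x => sliceL ν x = 0) (map_zero _)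
      (fun y hy t _ => by rw [sliceL_tmul, hν y hy, zero_smul])
      (fun a b ha hb => by rw [map_add, ha, hb, add_zero]) (mem_boxRing.1 (hv.1 a k))
  · simp only [map_sub, sub_mul, Finset.sum_sub_distrib]
    rw [← sliceL_vsec, ← sliceL_voSol, he, voSol_coords P hv.mem_poles, sub_self]

theorem IsSol.eq_zero {φ : R →ₐ[K] S} {s : Ix P → S} (h : IsSol P φ s) (h0 : vsec P φ s = 0) :
    s = 0 := by
  rw [← coords_voSol P s, ← voSol_eq_of_isSol P h, h0]
  funext p
  simp [coords]

theorem ambMap_vsec (φ : R →ₐ[K] S) (ψ : S →ₐ[K] S') (s : Ix P → S) (a : Box MX MY)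
    (k : Fin (P.n a)) :
    ambMap ψ (vsec P φ s a k) = vsec P (ψ.comp φ) (fun p => ψ (s p)) a k := by
  simp only [vsec, Matrix.mulVec, dotProduct, voSol, map_sum, map_mul, Matrix.map_apply,
    ambMap_ambMap, ambMap_tmul]

/-- Finitely many equations cut out the sections. -/
theorem exists_equations [IsNoetherianRing R] :
    ∃ (N : ℕ) (M : Matrix (Fin N) (Ix P) R), ∀ (S : Type u) [CommRing S] [Algebra K S]
      (φ : R →ₐ[K] S) (s : Ix P → S), IsSol P φ s ↔ M.map φ *ᵥ s = 0 := by
  classical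
  obtain ⟨t, hts, ht⟩ :=
    Submodule.fg_span_iff_fg_span_finset_subset (rows P) |>.1
      (IsNoetherian.noetherian (Submodule.span R (rows P)))
  refine ⟨t.card, Matrix.of fun i p => (t.equivFin.symm i : Ix P → R) p, fun S _ _ φ s => ⟨fun h => ?_,
    fun h r hr => ?_⟩⟩
  · funext i
    exact h _ (hts (t.equivFin.symm i).2)
  · have hr' : r ∈ Submodule.span R (t : Set (Ix P → R)) := ht ▸ Submodule.subset_span hr
    clear hr
    induction hr' using Submodule.span_induction with
    | mem x hx =>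
      have := congrFun h (t.equivFin ⟨x, hx⟩)
      simpa [Matrix.mulVec, dotProduct] using this
    | zero => simp
    | add x y _ _ hx hy => simp [map_add, add_mul, Finset.sum_add_distrib, hx, hy]
    | smul c x _ hx =>
      simp only [Pi.smul_apply, smul_eq_mul, map_mul, mul_assoc, ← Finset.mul_sum, hx, mul_zero]

end FLTAgent.AbScheme.Cube
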