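import Fermat.Agent.AbScheme.Cube.Basic

/-!
A cocycle of functions on the boxes of a product whose two faces are coboundaries is a coboundary.
-/

set_option autoImplicit false
set_option linter.unusedSectionVars false

noncomputable section

universe u

namespace FLTAgent.AbScheme.Cube

open scoped TensorProduct

variable {K F G : Type u} [Field K] [Field F] [Algebra K F] [Field G] [Algebra K G]

theorem sliceR_eq_zero {V W : Type u} [AddCommGroup V] [Module K V] [AddCommGroup W] [Module K W]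
    {U : Submodule K V} {U' : Submodule K W} {μ : W →ₗ[K] K} (h : ∀ w ∈ U', μ w = 0)
    {x : V ⊗[K] W} (hx : x ∈ tsub U U') : sliceR μ x = 0 :=
  tsub_induction (p := fun x => sliceR μ x = 0) (map_zero _)
    (fun v _ w hw => by rw [sliceR_tmul, h w hw, zero_smul])
    (fun a b ha hb => by rw [map_add, ha, hb, add_zero]) hx

variable (MX : CoverModel K F) (MY : CoverModel K G)

/-- The functions of the first factor that are coboundaries. -/
def cobdy : Submodule K (MX.ι × MX.ι → F) where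
  carrier := {g | ∃ a : MX.ι → F, (∀ i, a i ∈ MX.C i) ∧ ∀ p, g p = a p.2 - a p.1}
  zero_mem' := ⟨0, fun i => zero_mem _, fun p => by simp⟩
  add_mem' := by
    rintro g g' ⟨a, ha, hg⟩ ⟨a', ha', hg'⟩
    exact ⟨a + a', fun i => add_mem (ha i) (ha' i), fun p => by
      simp only [Pi.add_apply, hg p, hg' p]; abel⟩
  smul_mem' := by
    rintro c g ⟨a, ha, hg⟩
    exact ⟨c • a, fun i => Subalgebra.smul_mem _ (ha i) c, fun p => by
      simp [hg p, smul_sub]⟩

theorem slices_mem_cobdy {δ : Box MX MY → Box MX MY → F ⊗[K] G}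
    (hmem : ∀ a b, δ a b ∈ tsub (Subalgebra.toSubmodule (MX.C a.1 ⊔ MX.C b.1))
      (Subalgebra.toSubmodule (MY.C a.2 ⊔ MY.C b.2)))
    (hcoc : ∀ a b c, δ a c = δ a b + δ b c) {ly : G →ₗ[K] K} (hly : ly 1 = 1)
    (hfy : (fun p : MX.ι × MX.ι => sliceR ly (δ (p.1, MY.base) (p.2, MY.base))) ∈ cobdy MX)
    (j : MY.ι) (μ : G →ₗ[K] K) :
    (fun p : MX.ι × MX.ι => sliceR μ (δ (p.1, j) (p.2, j))) ∈ cobdy MX := by
  let c : MY.ι → (G →ₗ[K] K) →ₗ[K] (MX.ι × MX.ι → F) := fun j =>
    { toFun := fun μ p => sliceR μ (δ (p.1, j) (p.2, j))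
      map_add' := fun μ ν => funext fun p => by
        simp [sliceR, TensorProduct.map_add_right]
      map_smul' := fun a μ => funext fun p => by
        simp [sliceR, TensorProduct.map_smul_right] }
  have hdiff : ∀ j j' μ, c j μ - c j' μ ∈ cobdy MX := fun j j' μ =>
    ⟨fun i => -sliceR μ (δ (i, j) (i, j')),
      fun i => by
        have h := sliceR_mem μ (hmem (i, j) (i, j'))
        simpa using neg_mem h,
      fun p => by
        show sliceR μ (δ (p.1, j) (p.2, j)) - sliceR μ (δ (p.1, j') (p.2, j')) = _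
        have h := hcoc (p.1, j) (p.2, j) (p.2, j')
        rw [hcoc (p.1, j) (p.1, j') (p.2, j')] at h
        have h' := congrArg (sliceR μ) h
        simp only [map_add] at h'
        linear_combination -h'⟩
  have hker : ∀ j μ, (∀ g ∈ MY.C j, μ g = 0) → c j μ = 0 := fun j μ h => funext fun p => by
    refine sliceR_eq_zero (fun g hg => h g ?_) (hmem (p.1, j) (p.2, j))
    simpa using hg
  let N : Submodule K (G →ₗ[K] K) := (cobdy MX).comap (c MY.base)
  have hann : ∀ j, (Subalgebra.toSubmodule (MY.C j)).dualAnnihilator ≤ N := fun j μ hμ => by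
    have h := hdiff MY.base j μ
    rw [hker j μ (fun g hg => (Submodule.mem_dualAnnihilator μ).1 hμ g hg), sub_zero] at h
    exact h
  have hall : ∀ μ, μ ∈ N := fun μ => by
    have h1 : μ - μ 1 • ly ∈ (⨅ j, Subalgebra.toSubmodule (MY.C j)).dualAnnihilator := by
      rw [Submodule.mem_dualAnnihilator]
      intro g hg
      simp only [Submodule.mem_iInf] at hg
      obtain ⟨a, rfl⟩ := Algebra.mem_bot.1 (MY.const g hg)
      simp [Algebra.algebraMap_eq_smul_one, hly]
    rw [Subspace.dualAnnihilator_iInf_eq] at h1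
    have h2 := N.add_mem ((iSup_le hann) h1) (N.smul_mem (μ 1) (hfy : ly ∈ N))
    simpa using h2
  have := (cobdy MX).sub_mem (hall μ) (hdiff MY.base j μ)
  rwa [sub_sub_cancel] at this

/-- The first cohomology of the product injects in those of the faces. -/
theorem exists_coboundary {δ : Box MX MY → Box MX MY → F ⊗[K] G}
    (hmem : ∀ a b, δ a b ∈ tsub (Subalgebra.toSubmodule (MX.C a.1 ⊔ MX.C b.1))
      (Subalgebra.toSubmodule (MY.C a.2 ⊔ MY.C b.2)))
    (hcoc : ∀ a b c, δ a c = δ a b + δ b c) {lx : F →ₗ[K] K} (hlx : lx 1 = 1)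
    {ly : G →ₗ[K] K} (hly : ly 1 = 1)
    (hfy : ∃ a : MX.ι → F, (∀ i, a i ∈ MX.C i) ∧
      ∀ i i', sliceR ly (δ (i, MY.base) (i', MY.base)) = a i' - a i)
    (hfx : ∃ b : MY.ι → G, (∀ j, b j ∈ MY.C j) ∧
      ∀ j j', sliceL lx (δ (MX.base, j) (MX.base, j')) = b j' - b j) :
    ∃ e : Box MX MY → F ⊗[K] G, (∀ a, e a ∈ tsub (Subalgebra.toSubmodule (MX.C a.1))
      (Subalgebra.toSubmodule (MY.C a.2))) ∧ ∀ a b, δ a b = e b - e a := by
  obtain ⟨ay, hay, hay'⟩ := hfy
  obtain ⟨bx, hbx, hbx'⟩ := hfx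
  have hsl := slices_mem_cobdy MX MY hmem hcoc hly ⟨ay, hay, fun p => hay' p.1 p.2⟩
  have hstep : ∀ j, ∃ e : MX.ι → F ⊗[K] G,
      (∀ i, e i ∈ tsub (Subalgebra.toSubmodule (MX.C i)) (Subalgebra.toSubmodule (MY.C j))) ∧
      ∀ p : MX.ι × MX.ι, δ (p.1, j) (p.2, j) = e p.2 - e p.1 := fun j => by
    refine exists_coboundary_of_slices Prod.fst Prod.snd _ (fun p => ?_) fun μ => hsl j μ
    refine tsub_mono le_top ?_ (hmem (p.1, j) (p.2, j))
    simp
  choose e₁ he₁ he₁' using hstep
  let δ' : Box MX MY → Box MX MY → F ⊗[K] G := fun a b => δ a b - (e₁ b.2 b.1 - e₁ a.2 a.1)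
  have hcoc' : ∀ a b c, δ' a c = δ' a b + δ' b c := fun a b c => by
    simp only [δ', hcoc a b c]; abel
  have h0 : ∀ i i' j, δ' (i, j) (i', j) = 0 := fun i i' j => by
    simp only [δ', he₁' j (i, i'), sub_self]
  have hind : ∀ i i' j j', δ' (i, j) (i', j') = δ' (MX.base, j) (MX.base, j') := fun i i' j j' => by
    rw [hcoc' (i, j) (MX.base, j) (i', j'), hcoc' (MX.base, j) (MX.base, j') (i', j'), h0, h0,
      zero_add, add_zero]
  have : Nonempty MX.ι := ⟨MX.base⟩
  let β : MY.ι → G := fun j => bx j - sliceL lx (e₁ j MX.base)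
  have hβ : ∀ j j', δ' (MX.base, j) (MX.base, j') = (1 : F) ⊗ₜ[K] (β j' - β j) := fun j j' => by
    set g := δ' (MX.base, j) (MX.base, j') with hg
    have hgm : g ∈ tsub (⨅ i, Subalgebra.toSubmodule (MX.C i))
        (⨅ _ : Unit, Subalgebra.toSubmodule (MY.C j ⊔ MY.C j')) := mem_tsub_iInf.2 fun i _ => by
      rw [hg, ← hind i i j j']
      refine sub_mem ?_ (sub_mem (tsub_mono le_rfl ?_ (he₁ j' i)) (tsub_mono le_rfl ?_ (he₁ j i)))
      · simpa using hmem (i, j) (i, j')
      · exact Subalgebra.toSubmodule.monotone le_sup_right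
      · exact Subalgebra.toSubmodule.monotone le_sup_left
    have hg1 : g = (1 : F) ⊗ₜ[K] sliceL lx g := by
      refine tsub_induction (p := fun g => g = (1 : F) ⊗ₜ[K] sliceL lx g) (by simp)
        (fun f hf w _ => ?_) (fun a b ha hb => ?_) hgm
      · simp only [Submodule.mem_iInf] at hf
        obtain ⟨a, rfl⟩ := Algebra.mem_bot.1 (MX.const f hf)
        simp [Algebra.algebraMap_eq_smul_one, hlx, TensorProduct.smul_tmul]
      · rw [map_add, TensorProduct.tmul_add, ← ha, ← hb]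
    have hval : sliceL lx g = β j' - β j := by
      simp only [hg, δ', β, map_sub, hbx']
      abel
    rw [← hval]
    exact hg1
  refine ⟨fun a => e₁ a.2 a.1 + (1 : F) ⊗ₜ[K] β a.2, fun a => ?_, fun a b => ?_⟩
  · refine add_mem (he₁ _ _) (tmul_mem_tsub (one_mem (MX.C a.1)) ?_)
    exact (MY.C a.2).sub_mem (hbx _) (sliceL_mem lx (he₁ _ _))
  · have h := (hind a.1 b.1 a.2 b.2).trans (hβ a.2 b.2)
    simp only [δ', Prod.mk.eta] at h
    rw [sub_eq_iff_eq_add] at h
    rw [h, TensorProduct.tmul_sub]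
    exact (sub_add_sub_comm _ _ _ _).trans
      (congrArg₂ (· - ·) (add_comm _ _) (add_comm _ _))

end FLTAgent.AbScheme.Cube
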