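import Fermat.Agent.AbScheme.Cube.Face
import Fermat.Agent.AbScheme.Cube.H1

/-!
A trivialisation of a bundle trivial on both faces lifts along an extension of parameters by an
ideal of square zero.
-/

set_option autoImplicit false
set_option linter.unusedSectionVars false

noncomputable section

universe u

namespace FLTAgent.AbScheme.Cube

open scoped TensorProduct Matrix

variable {K F G : Type u} [Field K] [Field F] [Algebra K F] [Field G] [Algebra K G]
  {MX : CoverModel K F} {MY : CoverModel K G} {R : Type u} [CommRing R] [Algebra K R]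
  {P : Bundle MX MY R}
  {S S₀ : Type u} [CommRing S] [Algebra K S] [CommRing S₀] [Algebra K S₀]

/-- The parameters killed by a change. -/
def kerSub (π : S →ₐ[K] S₀) : Submodule K S := LinearMap.ker π.toLinearMap

section kernel

variable {V : Type u} [CommRing V] [Algebra K V] {π : S →ₐ[K] S₀}

theorem mem_kerSub {x : V ⊗[K] S}
    (hx : Algebra.TensorProduct.map (AlgHom.id K V) π x = 0) :
    x ∈ tsub (⊤ : Submodule K V) (kerSub π) := mem_tsub_right.2 fun ν => by
  have h : ∀ y : V ⊗[K] S,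
      π (sliceL ν y) = sliceL ν (Algebra.TensorProduct.map (AlgHom.id K V) π y) := fun y => by
    induction y using TensorProduct.induction_on with
    | zero => simp
    | tmul v s => simp
    | add a b ha hb => simp only [map_add, ha, hb]
  show π (sliceL ν x) = 0
  rw [h, hx, map_zero]

theorem map_eq_zero_of_mem {U : Submodule K V} {x : V ⊗[K] S} (hx : x ∈ tsub U (kerSub π)) :
    Algebra.TensorProduct.map (AlgHom.id K V) π x = 0 :=
  tsub_induction (p := fun x => Algebra.TensorProduct.map (AlgHom.id K V) π x = 0) (map_zero _)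
    (fun v _ s hs => by
      rw [Algebra.TensorProduct.map_tmul, show π s = 0 from hs, TensorProduct.tmul_zero])
    (fun a b ha hb => by rw [map_add, ha, hb, add_zero]) hx

theorem mul_eq_zero_of_map (hsq : ∀ s s', π s = 0 → π s' = 0 → s * s' = 0) {x y : V ⊗[K] S}
    (hx : Algebra.TensorProduct.map (AlgHom.id K V) π x = 0)
    (hy : Algebra.TensorProduct.map (AlgHom.id K V) π y = 0) : x * y = 0 :=
  tsub_induction (p := fun x => x * y = 0) (zero_mul y)
    (fun v _ s hs => tsub_induction (p := fun y => v ⊗ₜ[K] s * y = 0) (mul_zero _)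
      (fun v' _ s' hs' => by
        rw [Algebra.TensorProduct.tmul_mul_tmul, hsq s s' hs hs', TensorProduct.tmul_zero])
      (fun a b ha hb => by rw [mul_add, ha, hb, add_zero]) (mem_kerSub hy))
    (fun a b ha hb => by rw [add_mul, ha, hb, add_zero]) (mem_kerSub hx)

end kernel

/-- The failure of a vector of a box to be transported. -/
def defect (P : Bundle MX MY R) (φ : R →ₐ[K] S) (t : ∀ a, Fin (P.n a) → Amb K F G S)
    (a b : Box MX MY) : Fin (P.n b) → Amb K F G S :=
  t b - (P.T a b).map (ambMap φ) *ᵥ t a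

/-- The cocycle of a lifted trivialisation. -/
def deltaOf (P : Bundle MX MY R) (φ : R →ₐ[K] S) (t u : ∀ a, Fin (P.n a) → Amb K F G S)
    (a b : Box MX MY) : Amb K F G S :=
  u b ⬝ᵥ defect P φ t a b

theorem defect_mem {φ : R →ₐ[K] S} {t : ∀ a, Fin (P.n a) → Amb K F G S}
    (ht : ∀ a k, t a k ∈ ring₁ MX MY a S) (a b : Box MX MY) (k : Fin (P.n b)) :
    defect P φ t a b k ∈ ring₂ MX MY a b S := by
  simp only [defect, Pi.sub_apply, Matrix.mulVec, dotProduct, Matrix.map_apply]
  exact sub_mem (ring₁_le_ring₂_right a b (ht b k)) (sum_mem fun l _ =>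
    mul_mem (ambMap_mem φ (P.mem a b k l)) (ring₁_le_ring₂_left a b (ht a l)))

theorem deltaOf_mem {φ : R →ₐ[K] S} {t u : ∀ a, Fin (P.n a) → Amb K F G S}
    (ht : ∀ a k, t a k ∈ ring₁ MX MY a S) (hu : ∀ a k, u a k ∈ ring₁ MX MY a S)
    (a b : Box MX MY) : deltaOf P φ t u a b ∈ ring₂ MX MY a b S := by
  simp only [deltaOf, dotProduct]
  exact sum_mem fun k _ => mul_mem (ring₁_le_ring₂_right a b (hu b k)) (defect_mem ht a b k)

theorem swapA_deltaOf (φ : R →ₐ[K] S) (t u : ∀ a, Fin (P.n a) → Amb K F G S) (a b : Box MY MX) :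
    deltaOf P.swap φ (fun a k => swapA (t (a.2, a.1) k)) (fun a k => swapA (u (a.2, a.1) k)) a b =
      swapA (deltaOf P φ t u (a.2, a.1) (b.2, b.1)) := by
  simp only [deltaOf, defect, Pi.sub_apply, Matrix.mulVec, dotProduct, map_sum, map_mul, map_sub,
    Matrix.map_apply, swapA_ambMap]
  simp only [Bundle.swap, Matrix.map_apply]
  rfl

/-- The cocycle of a lifted trivialisation is a coboundary on a trivial face. -/
theorem face_coboundary {ly : G →ₗ[K] K} (hly : ∀ g : MY.C MY.base, ly g = MY.ev g)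
    (hf : FaceAt P ly) {π : S →ₐ[K] S₀} (hπ : Function.Surjective π)
    (hsq : ∀ s s', π s = 0 → π s' = 0 → s * s' = 0) {φ : R →ₐ[K] S} (t₀ : Triv P (π.comp φ))
    {t u : ∀ a, Fin (P.n a) → Amb K F G S} (ht : ∀ a k, t a k ∈ ring₁ MX MY a S)
    (hu : ∀ a k, u a k ∈ ring₁ MX MY a S) (ht' : ∀ a k, ambMap π (t a k) = t₀.v a k)
    (hu' : ∀ a k, ambMap π (u a k) = t₀.w a k) (μ : S →ₗ[K] K) :
    ∃ e : MX.ι → F, (∀ i, e i ∈ MX.C i) ∧ ∀ i i',
      sliceR ly (sliceR μ (deltaOf P φ t u (i, MY.base) (i', MY.base))) = e i' - e i := by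
  obtain ⟨v, w, hm, hr, h1⟩ := hf
  have hmul : ∀ {S' : Type u} [CommRing S'] [Algebra K S'] (A A' : Subalgebra K F)
      {x y : Amb K F G S'}, x ∈ boxRing A (MY.C MY.base) S' → y ∈ boxRing A' (MY.C MY.base) S' →
        evY ly (x * y) = evY ly x * evY ly y := fun A A' x y hx hy => evY_mul hly hx hy
  have hT : ∀ i i' k l, P.T (i, MY.base) (i', MY.base) k l ∈
      boxRing (MX.C i ⊔ MX.C i') (MY.C MY.base) R := fun i i' k l => by
    simpa [ring₂] using P.mem (i, MY.base) (i', MY.base) k l
  set A : ∀ i i', Matrix (Fin (P.n (i', MY.base))) (Fin (P.n (i, MY.base))) (F ⊗[K] R) :=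
    fun i i' => (P.T (i, MY.base) (i', MY.base)).map (evY ly) with hA
  have hA₁ : ∀ i k k' l l', A i i k l * A i i k' l' = A i i k l' * A i i k' l := fun i k k' l l' => by
    simp only [hA, Matrix.map_apply, ← hmul _ _ (hT i i _ _) (hT i i _ _), P.rankOne]
  set τ : ∀ i, Fin (P.n (i, MY.base)) → F ⊗[K] S := fun i k => evY ly (t (i, MY.base) k) with hτ
  set υ : ∀ i, Fin (P.n (i, MY.base)) → F ⊗[K] S := fun i k => evY ly (u (i, MY.base) k) with hυ
  set B : ∀ i i', Matrix (Fin (P.n (i', MY.base))) (Fin (P.n (i, MY.base))) (F ⊗[K] S) :=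
    fun i i' => (A i i').map (sideMap φ) with hB
  have hcomp : ∀ y : F ⊗[K] R, sideMap π (sideMap φ y) = sideMap (π.comp φ) y := fun y => by
    induction y using TensorProduct.induction_on with
    | zero => simp only [map_zero]
    | tmul f s => rfl
    | add a b ha hb => simp only [map_add, ha, hb]
  have hδ : ∀ i i', evY ly (deltaOf P φ t u (i, MY.base) (i', MY.base)) =
      υ i' ⬝ᵥ (τ i' - B i i' *ᵥ τ i) := fun i i' => by
    simp only [deltaOf, defect, dotProduct, map_sum]
    refine Finset.sum_congr rfl fun k _ => ?_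
    rw [hmul _ (MX.C i ⊔ MX.C i') (hu (i', MY.base) k) (by
      have h := defect_mem (φ := φ) ht (i, MY.base) (i', MY.base) k
      simp only [ring₂, sup_idem] at h
      exact h)]
    simp only [hτ, hυ, hB, Pi.sub_apply, Matrix.mulVec, dotProduct, map_sub, map_sum,
      Matrix.map_apply]
    congr 2
    refine Finset.sum_congr rfl fun l _ => ?_
    rw [hmul _ _ (ambMap_mem φ (hT i i' k l)) (ht (i, MY.base) l), evY_ambMap]
    rfl
  have hτ₀ : ∀ i i', (fun k => sideMap π (τ i' k)) =
      (A i i').map (sideMap (π.comp φ)) *ᵥ fun k => sideMap π (τ i k) := fun i i' => funext fun k => by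
    simp only [hτ, ← evY_ambMap, ht']
    rw [← t₀.v_rel (i, MY.base) (i', MY.base)]
    simp only [Matrix.mulVec, dotProduct, map_sum]
    refine Finset.sum_congr rfl fun l _ => ?_
    rw [Matrix.map_apply, hmul _ _ (ambMap_mem _ (hT i i' k l)) (t₀.v_mem _ l), evY_ambMap]
    rfl
  have hυ₀ : ∀ i i', (fun k => sideMap π (υ i k)) =
      (fun k => sideMap π (υ i' k)) ᵥ* (A i i').map (sideMap (π.comp φ)) := fun i i' =>
    funext fun l => by
    simp only [hυ, ← evY_ambMap, hu']
    rw [← t₀.w_rel (i, MY.base) (i', MY.base)]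
    simp only [Matrix.vecMul, dotProduct, map_sum]
    refine Finset.sum_congr rfl fun k _ => ?_
    rw [Matrix.map_apply, hmul _ _ (t₀.w_mem _ k) (ambMap_mem _ (hT i i' k l)), evY_ambMap]
    rfl
  have hrel : ∀ {S' : Type u} [CommRing S'] [Algebra K S'] (ψ : R →ₐ[K] S') (i i'),
      (A i i').map (sideMap ψ) *ᵥ (fun k => sideMap ψ (v i k)) = (fun k => sideMap ψ (v i' k)) ∧
      (fun k => sideMap ψ (w i' k)) ᵥ* (A i i').map (sideMap ψ) = fun k => sideMap ψ (w i k) :=
    fun ψ i i' => ⟨funext fun k => by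
        rw [← (hr i i').1]; simp [Matrix.mulVec, dotProduct, hA, map_sum, map_mul],
      funext fun k => by
        rw [← (hr i i').2]; simp [Matrix.vecMul, dotProduct, hA, map_sum, map_mul]⟩
  -- the lifted section on the face is a multiple of the given one
  set x : MX.ι → F ⊗[K] S₀ := fun i =>
    (fun k => sideMap (π.comp φ) (w i k)) ⬝ᵥ fun k => sideMap π (τ i k) with hx
  have hxc : ∀ i i', x i = x i' := fun i i' => by
    simp only [hx]
    rw [← (hrel (π.comp φ) i i').2, ← Matrix.dotProduct_mulVec, ← hτ₀ i i']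
  have hτm : ∀ i k, τ i k ∈ sideRing (MX.C i) S := fun i k => evY_mem ly (ht _ k)
  have hυm : ∀ i k, υ i k ∈ sideRing (MX.C i) S := fun i k => evY_mem ly (hu _ k)
  obtain ⟨c₀, hc₀⟩ := exists_eq_one_tmul_side (x := x MX.base) fun i => by
    rw [hxc _ i]
    exact sum_mem fun k _ => mul_mem (sideMap_mem _ (hm i k).2) (sideMap_mem _ (hτm i k))
  obtain ⟨c, rfl⟩ := hπ c₀
  set r : ∀ i, Fin (P.n (i, MY.base)) → F ⊗[K] S :=
    fun i k => τ i k - (1 : F) ⊗ₜ[K] c * sideMap φ (v i k) with hrdef
  have hr₀ : ∀ i k, sideMap π (r i k) = 0 := fun i k => by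
    have hone : (fun k => sideMap (π.comp φ) (w i k)) ⬝ᵥ
        (fun k => sideMap (π.comp φ) (v i k)) = 1 := by
      rw [← map_one (sideMap (π.comp φ)), ← h1 i]
      simp [dotProduct, map_sum, map_mul]
    have hp : ∀ k k' l l', (A i i).map (sideMap (π.comp φ)) k l *
        (A i i).map (sideMap (π.comp φ)) k' l' = (A i i).map (sideMap (π.comp φ)) k l' *
        (A i i).map (sideMap (π.comp φ)) k' l := fun k k' l l' => by
      simp only [Matrix.map_apply, ← map_mul, hA₁]
    have key := fun l => rankOne_projector hp (hτ₀ i i).symm (hrel _ i i).2 k l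
    have key' := fun l => rankOne_projector hp (hrel _ i i).1 (hrel _ i i).2 k l
    simp only [hone, mul_one] at key'
    have e : sideMap π (τ i k) = x i * sideMap (π.comp φ) (v i k) := by
      calc sideMap π (τ i k)
          = ∑ l, sideMap π (τ i k) * sideMap (π.comp φ) (w i l) * sideMap (π.comp φ) (v i l) := by
            simp only [mul_assoc, ← Finset.mul_sum]
            rw [show ∑ l, sideMap (π.comp φ) (w i l) * sideMap (π.comp φ) (v i l) = 1 from hone,
              mul_one]
        _ = x i * ∑ l, (A i i).map (sideMap (π.comp φ)) k l * sideMap (π.comp φ) (v i l) := by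
            rw [Finset.mul_sum]
            refine Finset.sum_congr rfl fun l _ => ?_
            rw [key l]
            simp only [hx]
            ring
        _ = _ := congrArg (x i * ·) (congrFun (hrel (π.comp φ) i i).1 k)
    simp only [hrdef, map_sub, map_mul, hcomp, e, ← hxc MX.base i, hc₀, sideMap_tmul, sub_self]
  refine ⟨fun i => sliceR μ (υ i ⬝ᵥ r i), fun i => ?_, fun i i' => ?_⟩
  · refine mem_tsub_left.1 (mem_sideRing.1 (sum_mem fun k _ => mul_mem (hυm i k) (sub_mem
      (hτm i k) (mul_mem ?_ (sideMap_mem _ (hm i k).1))))) μ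
    exact mem_sideRing.2 (tmul_mem_tsub (MX.C i).one_mem Submodule.mem_top)
  · rw [← sliceR_evY, hδ, ← map_sub]
    congr 1
    have hd : τ i' - B i i' *ᵥ τ i = r i' - B i i' *ᵥ r i := by
      have hv : B i i' *ᵥ (fun k => (1 : F) ⊗ₜ[K] c * sideMap φ (v i k)) =
          fun k => (1 : F) ⊗ₜ[K] c * sideMap φ (v i' k) := by
        have h := Matrix.mulVec_smul (B i i') ((1 : F) ⊗ₜ[K] c) (fun k => sideMap φ (v i k))
        rw [(hrel φ i i').1] at h
        exact h
      rw [show r i = τ i - (fun k => (1 : F) ⊗ₜ[K] c * sideMap φ (v i k)) from rfl,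
        show r i' = τ i' - (fun k => (1 : F) ⊗ₜ[K] c * sideMap φ (v i' k)) from rfl,
        Matrix.mulVec_sub, hv]
      abel
    rw [hd, dotProduct_sub, Matrix.dotProduct_mulVec]
    congr 1
    rw [← sub_eq_zero, ← sub_dotProduct]
    refine Finset.sum_eq_zero fun k _ => mul_eq_zero_of_map hsq ?_ (hr₀ i k)
    show sideMap π _ = 0
    rw [Pi.sub_apply, map_sub, sub_eq_zero, congrFun (hυ₀ i i') k]
    simp only [Matrix.vecMul, dotProduct, map_sum, map_mul, hB, Matrix.map_apply, hcomp]

/-- **Lifting along a square zero extension.** -/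
theorem exists_sect_lift {lx : F →ₗ[K] K} (hlx : ∀ f : MX.C MX.base, lx f = MX.ev f)
    {ly : G →ₗ[K] K} (hly : ∀ g : MY.C MY.base, ly g = MY.ev g) (hfy : FaceAt P ly)
    (hfx : FaceAt P.swap lx) {π : S →ₐ[K] S₀} (hπ : Function.Surjective π)
    (hsq : ∀ s s', π s = 0 → π s' = 0 → s * s' = 0) {φ : R →ₐ[K] S} (t₀ : Triv P (π.comp φ)) :
    ∃ s, IsSect P φ s ∧ ∀ a k, ambMap π (s a k) = t₀.v a k := by
  choose t₁ ht₁ ht₁' using fun a k => exists_lift_boxRing hπ (t₀.v_mem a k)
  choose u hu hu' using fun a k => exists_lift_boxRing hπ (t₀.w_mem a k)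
  set T : ∀ a b, Matrix (Fin (P.n b)) (Fin (P.n a)) (Amb K F G S) :=
    fun a b => (P.T a b).map (ambMap φ) with hT
  have htrans : ∀ a b c, T b c * T a b = T a c := fun a b c => by
    rw [hT]; simp only [← Matrix.map_mul, P.trans]
  have hT₀ : ∀ a b k l, ambMap π (T a b k l) = (P.T a b).map (ambMap (π.comp φ)) k l :=
    fun a b k l => ambMap_ambMap φ π _
  set t : ∀ a, Fin (P.n a) → Amb K F G S := fun a => T a a *ᵥ t₁ a with ht0
  have ht : ∀ a k, t a k ∈ ring₁ MX MY a S := fun a k => by
    simp only [ht0, hT, Matrix.mulVec, dotProduct, Matrix.map_apply]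
    exact sum_mem fun l _ => mul_mem (ambMap_mem φ (P.mem_self a k l)) (ht₁ a l)
  have ht' : ∀ a k, ambMap π (t a k) = t₀.v a k := fun a k => by
    rw [← congrFun (t₀.v_rel a a) k]
    simp only [ht0, Matrix.mulVec, dotProduct, map_sum, map_mul, hT₀, ht₁']
  have htt : ∀ a, T a a *ᵥ t a = t a := fun a => by
    rw [ht0]; simp only [Matrix.mulVec_mulVec, htrans]
  have hd₀ : ∀ a b k, ambMap π (defect P φ t a b k) = 0 := fun a b k => by
    simp only [defect, Pi.sub_apply, map_sub, ht', sub_eq_zero]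
    rw [← congrFun (t₀.v_rel a b) k]
    simp only [Matrix.mulVec, dotProduct, map_sum, map_mul, ← ht']
    exact Finset.sum_congr rfl fun l _ => by rw [← hT₀]
  have hcoc : ∀ a b c, deltaOf P φ t u a c = deltaOf P φ t u a b + deltaOf P φ t u b c :=
    fun a b c => by
    have hd : defect P φ t a c = defect P φ t b c + T b c *ᵥ defect P φ t a b := by
      simp only [defect, Matrix.mulVec_sub, Matrix.mulVec_mulVec, ← hT]
      rw [show (P.T b c).map (ambMap φ) * (P.T a b).map (ambMap φ) = (P.T a c).map (ambMap φ) from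
        htrans a b c]
      abel
    simp only [deltaOf, hd, dotProduct_add, Matrix.dotProduct_mulVec]
    rw [add_comm (u b ⬝ᵥ _)]
    congr 1
    rw [← sub_eq_zero, ← sub_dotProduct]
    refine Finset.sum_eq_zero fun k _ => mul_eq_zero_of_map hsq ?_ (hd₀ a b k)
    show ambMap π _ = 0
    rw [Pi.sub_apply, map_sub, hu', sub_eq_zero, ← congrFun (t₀.w_rel b c) k]
    simp only [Matrix.vecMul, dotProduct, map_sum, map_mul, hT₀, hu']
  have hslice : ∀ μ : S →ₗ[K] K, ∃ e : Box MX MY → F ⊗[K] G,
      (∀ a, e a ∈ tsub (Subalgebra.toSubmodule (MX.C a.1)) (Subalgebra.toSubmodule (MY.C a.2))) ∧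
      ∀ p : Box MX MY × Box MX MY,
        sliceR μ (deltaOf P φ t u p.1 p.2) = e p.2 - e p.1 := fun μ => by
    obtain ⟨ey, hey, hey'⟩ := face_coboundary hly hfy hπ hsq t₀ ht hu ht' hu' μ
    obtain ⟨ex, hex, hex'⟩ := face_coboundary hlx hfx hπ hsq t₀.swap
      (t := fun a k => swapA (t (a.2, a.1) k)) (u := fun a k => swapA (u (a.2, a.1) k))
      (fun a k => swapA_mem (ht _ k)) (fun a k => swapA_mem (hu _ k))
      (fun a k => (swapA_ambMap π _).symm.trans (congrArg swapA (ht' _ _)))
      (fun a k => (swapA_ambMap π _).symm.trans (congrArg swapA (hu' _ _))) μ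
    obtain ⟨e, he, he'⟩ := exists_coboundary MX MY
      (δ := fun a b => sliceR μ (deltaOf P φ t u a b))
      (fun a b => mem_tsub_left.1 (mem_boxRing.1 (deltaOf_mem ht hu a b)) μ)
      (fun a b c => by rw [hcoc a b c, map_add])
      (lx := lx) (by simpa using hlx 1) (ly := ly) (by simpa using hly 1) ⟨ey, hey, hey'⟩
      ⟨ex, hex, fun j j' => by
        have h := hex' j j'
        rw [swapA_deltaOf, sliceR_swapA] at h
        exact h⟩
    exact ⟨e, he, fun p => he' p.1 p.2⟩
  obtain ⟨e, he, he'⟩ := exists_coboundary_of_slices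
    (Prod.fst : Box MX MY × Box MX MY → Box MX MY) Prod.snd _ (U' := kerSub π)
    (x := fun p => deltaOf P φ t u p.1 p.2)
    (fun p => mem_kerSub (π := π) (show ambMap π _ = 0 by
      simp only [deltaOf, dotProduct, map_sum, map_mul, hd₀, mul_zero, Finset.sum_const_zero]))
    hslice
  have he₀ : ∀ a, ambMap π (e a) = 0 := fun a => map_eq_zero_of_mem (he a)
  refine ⟨fun a k => t a k - e a * t a k, ⟨fun a k => sub_mem (ht a k) (mul_mem
    (mem_boxRing.2 (tsub_mono le_rfl le_top (he a))) (ht a k)), fun a b => ?_⟩, fun a k => by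
      rw [map_sub, map_mul, he₀, zero_mul, sub_zero, ht']⟩
  have hd : ∀ k, defect P φ t a b k = deltaOf P φ t u a b * t b k := fun k => by
    have hfix : T b b *ᵥ defect P φ t a b = defect P φ t a b := by
      simp only [defect, Matrix.mulVec_sub, htt, Matrix.mulVec_mulVec,
        show T b b * (P.T a b).map (ambMap φ) = (P.T a b).map (ambMap φ) from htrans a b b]
    conv_lhs => rw [← hfix]
    simp only [deltaOf, Matrix.mulVec, dotProduct, Finset.sum_mul]
    rw [← sub_eq_zero, ← Finset.sum_sub_distrib]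
    refine Finset.sum_eq_zero fun l _ => ?_
    rw [show T b b k l * defect P φ t a b l - u b l * defect P φ t a b l * t b k =
      (T b b k l - t b k * u b l) * defect P φ t a b l by ring]
    refine mul_eq_zero_of_map hsq ?_ (hd₀ a b l)
    show ambMap π _ = 0
    rw [map_sub, map_mul, hT₀, ht', hu', t₀.proj, sub_self]
  funext k
  have h1 : (T a b *ᵥ fun k => t a k - e a * t a k) k =
      (T a b *ᵥ t a) k - e a * (T a b *ᵥ t a) k := by
    simp only [Matrix.mulVec, dotProduct, mul_sub, Finset.sum_sub_distrib, Finset.mul_sum]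
    exact congrArg _ (Finset.sum_congr rfl fun l _ => by ring)
  have h2 : (T a b *ᵥ t a) k = t b k - defect P φ t a b k := by
    simp only [defect, Pi.sub_apply, hT, sub_sub_cancel]
  have h3 : e a * defect P φ t a b k = 0 := mul_eq_zero_of_map hsq (he₀ a) (hd₀ a b k)
  refine h1.trans ?_
  rw [h2, mul_sub, h3, sub_zero, hd, he' (a, b)]
  ring

/-- **Trivialisations lift along square zero extensions.** -/
theorem nonempty_triv_lift {lx : F →ₗ[K] K} (hlx : ∀ f : MX.C MX.base, lx f = MX.ev f)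
    {ly : G →ₗ[K] K} (hly : ∀ g : MY.C MY.base, ly g = MY.ev g) (hfy : FaceAt P ly)
    (hfx : FaceAt P.swap lx) {π : S →ₐ[K] S₀} (hπ : Function.Surjective π)
    (hsq : ∀ s s', π s = 0 → π s' = 0 → s * s' = 0) {φ : R →ₐ[K] S} (t₀ : Triv P (π.comp φ)) :
    Nonempty (Triv P φ) := by
  obtain ⟨v, hv, hv'⟩ := exists_sect_lift hlx hly hfy hfx hπ hsq t₀
  obtain ⟨w, hw, hw'⟩ := exists_sect_lift hlx hly hfy.dual hfx.dual_swap hπ hsq t₀.dual
  have hw₂ : IsCosect P φ w := isCosect_iff.2 hw
  obtain ⟨c, hc⟩ := exists_pairing hv hw₂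
  have h1 : π c = 1 := one_tmul_injective (K := K) (F := F) (G := G) (by
    have h := congrArg (ambMap π) (hc (MX.base, MY.base))
    simp only [dotProduct, map_sum, map_mul, hv', ambMap_tmul] at h
    refine h.symm.trans (Eq.trans (Finset.sum_congr rfl fun k _ => ?_)
      ((t₀.one (MX.base, MY.base)).trans Algebra.TensorProduct.one_def))
    exact congrArg (· * _) (hw' _ k))
  refine nonempty_triv hv hw₂ (IsUnit.of_mul_eq_one (1 - (c - 1)) ?_) hc
  have h := hsq (c - 1) (c - 1) (by simp [h1]) (by simp [h1])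
  linear_combination -h

end FLTAgent.AbScheme.Cube
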