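import Fermat.Agent.AbScheme.Cube.Defs
import Fermat.Agent.AbScheme.Cube.Lift
import Fermat.Agent.AbScheme.Cube.Kernel

/-!
The algebraic theorem of the cube.
-/

set_option autoImplicit false
set_option linter.unusedSectionVars false

noncomputable section

universe u

namespace FLTAgent.AbScheme.Cube

open scoped TensorProduct Matrix

variable {K F G : Type u} [Field K] [IsAlgClosed K] [Field F] [Algebra K F] [Field G] [Algebra K G]
  {MX : CoverModel K F} {MY : CoverModel K G} {R : Type u} [CommRing R] [Algebra K R]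
  (P : Bundle MX MY R)

/-- Over a finite type algebra every nonzero element survives at a rational point. -/
theorem exists_point [IsDomain R] [Algebra.FiniteType K R] {g : R} (hg : g ≠ 0) :
    ∃ z : R →ₐ[K] K, z g ≠ 0 := by
  have : Nontrivial (Localization.Away g) :=
    (IsLocalization.injective (Localization.Away g)
      (powers_le_nonZeroDivisors_of_noZeroDivisors hg)).nontrivial
  have : Algebra.FiniteType R (Localization.Away g) :=
    IsLocalization.finiteType_of_monoid_fg (Submonoid.powers g) _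
  have : Algebra.FiniteType K (Localization.Away g) :=
    Algebra.FiniteType.trans (S := R) inferInstance inferInstance
  obtain ⟨m, hm⟩ := Ideal.exists_maximal (Localization.Away g)
  let _ : Field (Localization.Away g ⧸ m) := Ideal.Quotient.field m
  have : Algebra.FiniteType K (Localization.Away g ⧸ m) :=
    Algebra.FiniteType.of_surjective (Ideal.Quotient.mkₐ K m) Ideal.Quotient.mk_surjective
  have : Module.Finite K (Localization.Away g ⧸ m) :=
    finite_of_finite_type_of_isJacobsonRing K (Localization.Away g ⧸ m)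
  let e := AlgEquiv.ofBijective (Algebra.ofId K (Localization.Away g ⧸ m))
    IsAlgClosed.algebraMap_bijective_of_isIntegral
  refine ⟨(e.symm.toAlgHom.comp (Ideal.Quotient.mkₐ K m)).comp
    (IsScalarTower.toAlgHom K R (Localization.Away g)), fun h => ?_⟩
  have hu := ((IsLocalization.Away.algebraMap_isUnit g).map
    (e.symm.toAlgHom.comp (Ideal.Quotient.mkₐ K m))).ne_zero
  exact hu h

variable {P}

/-- A trivialisation at a point lifts to every infinitesimal neighbourhood. -/
theorem nonempty_triv_pow {lx : F →ₗ[K] K} (hlx : ∀ f : MX.C MX.base, lx f = MX.ev f)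
    {ly : G →ₗ[K] K} (hly : ∀ g : MY.C MY.base, ly g = MY.ev g) (hfy : FaceAt P ly)
    (hfx : FaceAt P.swap lx) {z : R →ₐ[K] K} (t : Triv P z) (n : ℕ) :
    Nonempty (Triv P (Ideal.Quotient.mkₐ K (RingHom.ker z ^ (n + 1)))) := by
  induction n with
  | zero =>
    refine t.nonempty_map (Algebra.ofId K _) (AlgHom.ext fun x => ?_)
    show algebraMap K _ (z x) = Ideal.Quotient.mk _ x
    rw [← Ideal.Quotient.mk_algebraMap, Ideal.Quotient.eq, pow_one, RingHom.mem_ker, map_sub,
      AlgHom.commutes, sub_eq_zero]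
    rfl
  | succ n ih =>
    obtain ⟨t₀⟩ := ih
    have hle : RingHom.ker z ^ (n + 1 + 1) ≤ RingHom.ker z ^ (n + 1) := Ideal.pow_le_pow_right (by omega)
    let π := Ideal.Quotient.factorₐ K hle
    have hπ : π.comp (Ideal.Quotient.mkₐ K (RingHom.ker z ^ (n + 1 + 1))) =
        Ideal.Quotient.mkₐ K (RingHom.ker z ^ (n + 1)) := AlgHom.ext fun x => rfl
    rw [← hπ] at t₀
    refine nonempty_triv_lift hlx hly hfy hfx (π := π)
      (fun x => ?_) (fun s s' hs hs' => ?_) t₀
    · obtain ⟨y, rfl⟩ := Ideal.Quotient.mk_surjective x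
      exact ⟨Ideal.Quotient.mk _ y, rfl⟩
    · obtain ⟨a, rfl⟩ := Ideal.Quotient.mk_surjective s
      obtain ⟨b, rfl⟩ := Ideal.Quotient.mk_surjective s'
      have ha : a ∈ RingHom.ker z ^ (n + 1) := Ideal.Quotient.eq_zero_iff_mem.1 hs
      have hb : b ∈ RingHom.ker z ^ (n + 1) := Ideal.Quotient.eq_zero_iff_mem.1 hs'
      rw [← map_mul, Ideal.Quotient.eq_zero_iff_mem]
      have h := Ideal.mul_mem_mul ha hb
      rw [← pow_add] at h
      exact Ideal.pow_le_pow_right (by omega) h

/-- Sections over a deep enough neighbourhood of a point extend to the parameters. -/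
theorem exists_sect_id [IsNoetherianRing R] {P : Bundle MX MY R} (z : R →ₐ[K] K) :
    ∃ n₀ : ℕ, ∀ n ≥ n₀, ∀ v, IsSect P (Ideal.Quotient.mkₐ K (RingHom.ker z ^ n)) v →
      ∀ (q : (R ⧸ RingHom.ker z ^ n) →ₐ[K] K), q.comp (Ideal.Quotient.mkₐ K _) = z →
        ∃ v', IsSect P (AlgHom.id K R) v' ∧ ∀ a k, ambMap z (v' a k) = ambMap q (v a k) := by
  classical
  obtain ⟨N, M, hM⟩ := exists_equations P
  set I := RingHom.ker z with hI
  let f : (Ix P → R) →ₗ[R] (Fin N → R) := M.mulVecLin
  obtain ⟨k₀, hk₀⟩ := Ideal.exists_pow_inf_eq_pow_smul I (LinearMap.range f)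
  refine ⟨k₀ + 1, fun n hn v hv q hq => ?_⟩
  obtain ⟨hsol, hvs⟩ := hv.isSol
  choose s hs using fun p => Ideal.Quotient.mk_surjective (coords P (v obox) p)
  have hfs : f s ∈ I ^ n • (⊤ : Submodule R (Fin N → R)) := by
    have h := (hM _ _ _).1 hsol
    have hmem : ∀ i, f s i ∈ I ^ n := fun i => by
      refine Ideal.Quotient.eq_zero_iff_mem.1 ?_
      have h' := congrFun h i
      simp only [Matrix.mulVec, dotProduct, Matrix.map_apply, Pi.zero_apply, ← hs] at h'
      simpa [f, Matrix.mulVec, dotProduct, map_sum, map_mul] using h'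
    rw [pi_eq_sum_univ (f s)]
    exact sum_mem fun i _ => Submodule.smul_mem_smul (hmem i) Submodule.mem_top
  have h1 : f s ∈ I • LinearMap.range f := by
    have h2 : f s ∈ I ^ n • ⊤ ⊓ LinearMap.range f := ⟨hfs, s, rfl⟩
    rw [hk₀ n (by omega)] at h2
    exact Submodule.smul_mono (Ideal.pow_le_self (by omega)) inf_le_right h2
  rw [LinearMap.range_eq_map, ← Submodule.map_smul''] at h1
  obtain ⟨y, hy, hfy⟩ := h1
  have hy' : ∀ p, y p ∈ I := fun p => Submodule.smul_induction_on hy
    (fun r hr m _ => Ideal.mul_mem_right _ _ hr) (fun a b ha hb => add_mem ha hb)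
  have hsy : IsSol P (AlgHom.id K R) (s - y) := (hM _ _ _).2 (by
    rw [show M.map (AlgHom.id K R) = M from Matrix.ext fun _ _ => rfl, ← Matrix.mulVecLin_apply]
    show f (s - y) = 0
    rw [map_sub, hfy, sub_self])
  refine ⟨_, hsy.isSect, fun a k => ?_⟩
  rw [ambMap_vsec, ← hvs, ambMap_vsec, hq, AlgHom.comp_id]
  congr 1
  funext p
  rw [Pi.sub_apply, map_sub, (hy' p : z (y p) = 0), sub_zero, ← hs p]
  exact (AlgHom.congr_fun hq (s p)).symm

/-- A bundle trivial on both faces and at a point is trivial near it. -/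
theorem exists_triv_of_triv [IsNoetherianRing R] (hX : FaceX P) (hY : FaceY P) {z : R →ₐ[K] K}
    (t : Triv P z) :
    ∃ f : R, z f ≠ 0 ∧
      Nonempty (Triv P (IsScalarTower.toAlgHom K R (Localization.Away f))) := by
  obtain ⟨lx, -, hlx⟩ := exists_functional_ev MX.ev
  obtain ⟨ly, -, hly⟩ := exists_functional_ev MY.ev
  obtain ⟨n₁, hn₁⟩ := exists_sect_id (P := P) z
  obtain ⟨n₂, hn₂⟩ := exists_sect_id (P := P.dual) z
  obtain ⟨tn⟩ := nonempty_triv_pow hlx hly (faceAt_of_faceY hly hY) (faceAt_swap_of_faceX hlx hX) t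
    (max n₁ n₂)
  set n := max n₁ n₂ + 1 with hn
  let q := Ideal.Quotient.liftₐ (RingHom.ker z ^ n) z fun a ha =>
    (RingHom.mem_ker (f := z)).1 (Ideal.pow_le_self (by omega) ha)
  have hq : q.comp (Ideal.Quotient.mkₐ K _) = z := AlgHom.ext fun x => rfl
  obtain ⟨v, hv, hv'⟩ := hn₁ n (by omega) _ tn.isSect q hq
  obtain ⟨w, hw, hw'⟩ := hn₂ n (by omega) _ tn.dual.isSect q hq
  have hw₂ : IsCosect P (AlgHom.id K R) w := isCosect_iff.2 hw
  obtain ⟨c, hc⟩ := exists_pairing hv hw₂
  have hzc : z c = 1 := one_tmul_injective (K := K) (F := F) (G := G) (by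
    have h := congrArg (ambMap z) (hc (MX.base, MY.base))
    rw [ambMap_tmul] at h
    refine h.symm.trans ?_
    simp only [dotProduct, map_sum, map_mul, hv']
    refine Eq.trans (Finset.sum_congr rfl fun k _ => congrArg (· * _) (hw' _ k)) ?_
    refine Eq.trans ?_ ((congrArg (ambMap q) (tn.one (MX.base, MY.base))).trans
      ((map_one _).trans Algebra.TensorProduct.one_def))
    simp only [dotProduct, map_sum, map_mul]
    rfl)
  refine ⟨c, by rw [hzc]; exact one_ne_zero, ?_⟩
  let ψ := IsScalarTower.toAlgHom K R (Localization.Away c)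
  refine nonempty_triv (hv.map ψ (AlgHom.comp_id ψ)) (hw₂.map ψ (AlgHom.comp_id ψ)) (c := ψ c)
    (IsLocalization.Away.algebraMap_isUnit c) fun a => ?_
  rw [← ambMap_tmul, ← hc a]
  simp only [dotProduct, map_sum, map_mul]

/-- The points where a bundle has no section form a neighbourhood of each of them. -/
theorem exists_no_sect [IsNoetherianRing R] {P : Bundle MX MY R} {z : R →ₐ[K] K}
    (h : ∀ v, IsSect P z v → v = 0) :
    ∃ f : R, z f ≠ 0 ∧ ∀ z' : R →ₐ[K] K, z' f ≠ 0 → ∀ v, IsSect P z' v → v = 0 := by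
  classical
  obtain ⟨N, M, hM⟩ := exists_equations P
  have hker : LinearMap.ker (M.map z).mulVecLin = ⊥ := LinearMap.ker_eq_bot'.2 fun s hs =>
    have hsol := (hM K z s).2 hs
    hsol.eq_zero P (h _ hsol.isSect)
  obtain ⟨g, hg⟩ := LinearMap.exists_leftInverse_of_injective _ hker
  set L := LinearMap.toMatrix' g with hL
  have hLM : L * M.map z = 1 := by
    rw [hL, ← LinearMap.toMatrix'_toLin' (M.map z), ← LinearMap.toMatrix'_comp,
      show g ∘ₗ Matrix.toLin' (M.map z) = LinearMap.id from hg, LinearMap.toMatrix'_id]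
  refine ⟨(L.map (algebraMap K R) * M).det, ?_, fun z' hz' v hv => ?_⟩
  · rw [AlgHom.map_det, AlgHom.mapMatrix_apply, Matrix.map_mul, Matrix.map_map,
      show L.map (z ∘ algebraMap K R) = L from Matrix.ext fun _ _ => z.commutes _, hLM,
      Matrix.det_one]
    exact one_ne_zero
  · rw [AlgHom.map_det, AlgHom.mapMatrix_apply, Matrix.map_mul, Matrix.map_map,
      show L.map (z' ∘ algebraMap K R) = L from Matrix.ext fun _ _ => z'.commutes _] at hz'
    obtain ⟨hsol, hvs⟩ := hv.isSol
    have h0 : coords P (v obox) = 0 := by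
      by_contra hne
      refine hz' (Matrix.exists_mulVec_eq_zero_iff.1 ⟨_, hne, ?_⟩)
      rw [← Matrix.mulVec_mulVec, (hM _ _ _).1 hsol, Matrix.mulVec_zero]
    rw [← hvs, h0]
    funext a k
    simp [vsec, voSol, Matrix.mulVec, dotProduct]

theorem nonempty_triv_of_sect [IsDomain (F ⊗[K] G)] {z : R →ₐ[K] K}
    {v w : ∀ a, Fin (P.n a) → Amb K F G K} (hv : IsSect P z v) (hv0 : v ≠ 0)
    (hw : IsCosect P z w) (hw0 : w ≠ 0) : Nonempty (Triv P z) := by
  have : IsDomain (Amb K F G K) :=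
    (Algebra.TensorProduct.rid K K (F ⊗[K] G)).toMulEquiv.isDomain (F ⊗[K] G)
  obtain ⟨c, hc⟩ := exists_pairing hv hw
  refine nonempty_triv hv hw (isUnit_iff_ne_zero.2 fun hc0 => ?_) hc
  obtain ⟨k, hk⟩ : ∃ k, v obox k ≠ 0 := by
    by_contra! hk
    refine hv0 (funext fun a => ?_)
    rw [← hv.2 obox a, show v obox = 0 from funext hk, Matrix.mulVec_zero]
    rfl
  obtain ⟨l, hl⟩ : ∃ l, w obox l ≠ 0 := by
    by_contra! hl
    refine hw0 (funext fun a => ?_)
    rw [← hw.2 a obox, show w obox = 0 from funext hl, Matrix.zero_vecMul]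
    rfl
  refine mul_ne_zero hk hl ?_
  rw [rankOne_projector (rankOne_map z obox obox) (hv.2 _ _) (hw.2 _ _), hc, hc0,
    TensorProduct.tmul_zero, mul_zero]

variable (P)

/-- A bundle trivial on both faces and at one parameter is trivial near every parameter. -/
theorem exists_triv_near [IsDomain (F ⊗[K] G)] [IsDomain R] [Algebra.FiniteType K R]
    (hX : FaceX P) (hY : FaceY P) {z₀ : R →ₐ[K] K} (h₀ : Nonempty (Triv P z₀)) (z : R →ₐ[K] K) :
    ∃ f : R, z f ≠ 0 ∧
      Nonempty (Triv P (IsScalarTower.toAlgHom K R (Localization.Away f))) := by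
  have : IsNoetherianRing R := Algebra.FiniteType.isNoetherianRing K R
  suffices h : Nonempty (Triv P z) from h.elim fun t => exists_triv_of_triv hX hY t
  by_contra hne
  obtain ⟨t₀⟩ := h₀
  obtain ⟨f₀, hf₀, ⟨T₀⟩⟩ := exists_triv_of_triv hX hY t₀
  have hopen : ∀ z' : R →ₐ[K] K, z' f₀ ≠ 0 → Nonempty (Triv P z') := fun z' hz' =>
    T₀.nonempty_map (IsLocalization.Away.liftAlgHom f₀ (f := z') (isUnit_iff_ne_zero.2 hz'))
      (AlgHom.ext fun x => by simp)
  obtain ⟨f, hf, hno⟩ : ∃ f : R, z f ≠ 0 ∧ ∀ z' : R →ₐ[K] K, z' f ≠ 0 →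
      (∀ v, IsSect P z' v → v = 0) ∨ ∀ w, IsSect P.dual z' w → w = 0 := by
    by_cases hv : ∀ v, IsSect P z v → v = 0
    · obtain ⟨f, hf, h⟩ := exists_no_sect hv
      exact ⟨f, hf, fun z' hz' => Or.inl (h z' hz')⟩
    · by_cases hw : ∀ w, IsSect P.dual z w → w = 0
      · obtain ⟨f, hf, h⟩ := exists_no_sect hw
        exact ⟨f, hf, fun z' hz' => Or.inr (h z' hz')⟩
      · push Not at hv hw
        obtain ⟨v, hv, hv0⟩ := hv
        obtain ⟨w, hw, hw0⟩ := hw
        exact absurd (nonempty_triv_of_sect hv hv0 (isCosect_iff.2 hw) hw0) hne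
  obtain ⟨z', hz'⟩ := exists_point (K := K) (mul_ne_zero (fun h => hf₀ (by rw [h, map_zero]) : f₀ ≠ 0)
    (fun h => hf (by rw [h, map_zero]) : f ≠ 0))
  rw [map_mul, mul_ne_zero_iff] at hz'
  obtain ⟨t⟩ := hopen z' hz'.1
  let a : Box MX MY := (MX.base, MY.base)
  have : Nontrivial (Amb K F G K) :=
    (Algebra.TensorProduct.rid K K (F ⊗[K] G)).symm.injective.nontrivial
  rcases hno z' hz'.2 with h | h
  · have h1 := t.one a
    rw [h _ t.isSect] at h1
    exact zero_ne_one ((dotProduct_zero (t.w a)).symm.trans h1)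
  · have h1 := t.dual.one a
    rw [h _ t.dual.isSect] at h1
    exact zero_ne_one ((dotProduct_zero (t.dual.w a)).symm.trans h1)

/-- Two trivialisations differ by a unit of the parameters. -/
theorem Triv.exists_unit {S : Type u} [CommRing S] [Algebra K S] {φ : R →ₐ[K] S}
    (t t' : Triv P φ) :
    ∃ c : Sˣ, ∀ a k, t'.v a k = (1 : F ⊗[K] G) ⊗ₜ[K] (c : S) * t.v a k :=
  t.exists_unit_aux t'

end FLTAgent.AbScheme.Cube
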