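import Mathlib

/-!
Subspaces of a tensor product of vector spaces cut out by slices, and the gluing of slicewise
coboundaries.
-/

set_option autoImplicit false

noncomputable section

universe u

namespace FLTAgent.AbScheme.Cube

open scoped TensorProduct

variable {K V W : Type u} [Field K] [AddCommGroup V] [Module K V] [AddCommGroup W] [Module K W]

/-- The slice by a functional of the right factor. -/
def sliceR (μ : W →ₗ[K] K) : V ⊗[K] W →ₗ[K] V :=
  (TensorProduct.rid K V).toLinearMap ∘ₗ TensorProduct.map LinearMap.id μ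

/-- The slice by a functional of the left factor. -/
def sliceL (ν : V →ₗ[K] K) : V ⊗[K] W →ₗ[K] W :=
  (TensorProduct.lid K W).toLinearMap ∘ₗ TensorProduct.map ν LinearMap.id

@[simp] theorem sliceR_tmul (μ : W →ₗ[K] K) (v : V) (w : W) : sliceR μ (v ⊗ₜ[K] w) = μ w • v := by
  simp [sliceR]

@[simp] theorem sliceL_tmul (ν : V →ₗ[K] K) (v : V) (w : W) : sliceL ν (v ⊗ₜ[K] w) = ν v • w := by
  simp [sliceL]

theorem apply_sliceR (ν : V →ₗ[K] K) (μ : W →ₗ[K] K) (x : V ⊗[K] W) :
    ν (sliceR μ x) = μ (sliceL ν x) := by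
  induction x using TensorProduct.induction_on with
  | zero => simp
  | tmul v w => simp [mul_comm]
  | add x y hx hy => simp [map_add, hx, hy]

theorem ext_sliceR {x y : V ⊗[K] W} (h : ∀ μ : W →ₗ[K] K, sliceR μ x = sliceR μ y) : x = y := by
  classical
  rw [← sub_eq_zero]
  obtain ⟨ι, b⟩ : Σ ι : Set W, Module.Basis ι K W := ⟨_, Module.Basis.ofVectorSpace K W⟩
  obtain ⟨c, hc⟩ := TensorProduct.eq_repr_basis_right b (x - y)
  suffices c = 0 by rw [← hc, this, Finsupp.sum_zero_index]
  ext i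
  have h0 : sliceR (b.coord i) (x - y) = 0 := by
    rw [map_sub, h, sub_self]
  rw [← hc, Finsupp.sum, map_sum] at h0
  simpa [Finsupp.single_apply, ite_smul] using h0

theorem ext_sliceL {x y : V ⊗[K] W} (h : ∀ ν : V →ₗ[K] K, sliceL ν x = sliceL ν y) : x = y :=
  ext_sliceR fun μ => by
    obtain ⟨q, hq⟩ : ∃ b : V, b = sliceR μ x - sliceR μ y := ⟨_, rfl⟩
    rw [← sub_eq_zero, ← hq]
    refine (Module.forall_dual_apply_eq_zero_iff K q).1 fun ν => ?_
    rw [hq, map_sub, apply_sliceR, apply_sliceR, h, sub_self]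

/-- The image of a product of subspaces. -/
def tsub (U : Submodule K V) (U' : Submodule K W) : Submodule K (V ⊗[K] W) :=
  LinearMap.range (TensorProduct.map U.subtype U'.subtype)

theorem tmul_mem_tsub {U : Submodule K V} {U' : Submodule K W} {v : V} {w : W} (hv : v ∈ U)
    (hw : w ∈ U') : v ⊗ₜ[K] w ∈ tsub U U' :=
  ⟨(⟨v, hv⟩ : U) ⊗ₜ[K] (⟨w, hw⟩ : U'), rfl⟩

theorem tsub_induction {U : Submodule K V} {U' : Submodule K W} {p : V ⊗[K] W → Prop} (h0 : p 0)
    (ht : ∀ v ∈ U, ∀ w ∈ U', p (v ⊗ₜ[K] w)) (hadd : ∀ x y, p x → p y → p (x + y)) {x : V ⊗[K] W}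
    (hx : x ∈ tsub U U') : p x := by
  obtain ⟨t, rfl⟩ := hx
  induction t using TensorProduct.induction_on with
  | zero => rw [map_zero]; exact h0
  | tmul v w => exact ht v v.2 w w.2
  | add a b ha hb => rw [map_add]; exact hadd _ _ ha hb

theorem tsub_mono {U U₁ : Submodule K V} {U' U₁' : Submodule K W} (h : U ≤ U₁) (h' : U' ≤ U₁') :
    tsub U U' ≤ tsub U₁ U₁' := fun _ hx =>
  tsub_induction (zero_mem _) (fun _ hv _ hw => tmul_mem_tsub (h hv) (h' hw))
    (fun _ _ => add_mem) hx

theorem sliceR_mem {U : Submodule K V} {U' : Submodule K W} (μ : W →ₗ[K] K) {x : V ⊗[K] W}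
    (hx : x ∈ tsub U U') : sliceR μ x ∈ U :=
  tsub_induction (p := fun x => sliceR μ x ∈ U) (by simp)
    (fun v hv w _ => by simpa using U.smul_mem _ hv)
    (fun a b ha hb => by simpa using add_mem ha hb) hx

theorem sliceL_mem {U : Submodule K V} {U' : Submodule K W} (ν : V →ₗ[K] K) {x : V ⊗[K] W}
    (hx : x ∈ tsub U U') : sliceL ν x ∈ U' :=
  tsub_induction (p := fun x => sliceL ν x ∈ U') (by simp)
    (fun v _ w hw => by simpa using U'.smul_mem _ hw)
    (fun a b ha hb => by simpa using add_mem ha hb) hx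

/-- A subspace of the tensor product is cut out by the slices. -/
theorem mem_tsub_iff {U : Submodule K V} {U' : Submodule K W} {x : V ⊗[K] W} :
    x ∈ tsub U U' ↔ (∀ μ, sliceR μ x ∈ U) ∧ ∀ ν, sliceL ν x ∈ U' := by
  refine ⟨fun h => ⟨fun μ => sliceR_mem μ h, fun ν => sliceL_mem ν h⟩, fun h => ?_⟩
  obtain ⟨p, hp⟩ := U.subtype.exists_leftInverse_of_injective U.ker_subtype
  obtain ⟨q, hq⟩ := U'.subtype.exists_leftInverse_of_injective U'.ker_subtype
  have hp' : ∀ v ∈ U, (p v : V) = v := fun v hv => congrArg Subtype.val (LinearMap.congr_fun hp ⟨v, hv⟩)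
  have hq' : ∀ w ∈ U', (q w : W) = w := fun w hw => congrArg Subtype.val (LinearMap.congr_fun hq ⟨w, hw⟩)
  have e1 : TensorProduct.map (U.subtype ∘ₗ p) LinearMap.id x = x := ext_sliceR fun μ => by
    have : ∀ y : V ⊗[K] W, sliceR μ (TensorProduct.map (U.subtype ∘ₗ p) LinearMap.id y) =
        (p (sliceR μ y) : V) := fun y => by
      induction y using TensorProduct.induction_on with
      | zero => simp
      | tmul v w => simp
      | add a b ha hb => simp [map_add, ha, hb]
    rw [this, hp' _ (h.1 μ)]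
  have e2 : TensorProduct.map LinearMap.id (U'.subtype ∘ₗ q) x = x := ext_sliceL fun ν => by
    have : ∀ y : V ⊗[K] W, sliceL ν (TensorProduct.map LinearMap.id (U'.subtype ∘ₗ q) y) =
        (q (sliceL ν y) : W) := fun y => by
      induction y using TensorProduct.induction_on with
      | zero => simp
      | tmul v w => simp
      | add a b ha hb => simp [map_add, ha, hb]
    rw [this, hq' _ (h.2 ν)]
  refine ⟨TensorProduct.map p q x, ?_⟩
  conv_rhs => rw [← e1, ← e2]
  simp only [← LinearMap.comp_apply, ← TensorProduct.map_comp]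
  simp

theorem mem_tsub_left {U : Submodule K V} {x : V ⊗[K] W} :
    x ∈ tsub U ⊤ ↔ ∀ μ, sliceR μ x ∈ U := by
  simp [mem_tsub_iff]

theorem mem_tsub_right {U' : Submodule K W} {x : V ⊗[K] W} :
    x ∈ tsub ⊤ U' ↔ ∀ ν, sliceL ν x ∈ U' := by
  simp [mem_tsub_iff]

theorem mem_tsub_iInf {ι ι' : Type*} {U : ι → Submodule K V} {U' : ι' → Submodule K W}
    [Nonempty ι] [Nonempty ι'] {x : V ⊗[K] W} :
    x ∈ tsub (⨅ i, U i) (⨅ j, U' j) ↔ ∀ i j, x ∈ tsub (U i) (U' j) := by
  simp only [mem_tsub_iff, Submodule.mem_iInf]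
  exact ⟨fun h i j => ⟨fun μ => h.1 μ i, fun ν => h.2 ν j⟩,
    fun h => ⟨fun μ i => (h i (Classical.arbitrary ι')).1 μ,
      fun ν j => (h (Classical.arbitrary ι) j).2 ν⟩⟩

section slicewise

variable {A P : Type*} [Fintype P] (src tgt : P → A) (U : A → Submodule K V)

/-- Coboundaries slice by slice are coboundaries. -/
theorem exists_coboundary_of_slices {U' : Submodule K W} {x : P → V ⊗[K] W}
    (hx : ∀ p, x p ∈ tsub ⊤ U')
    (h : ∀ μ : W →ₗ[K] K, ∃ a : A → V, (∀ i, a i ∈ U i) ∧
      ∀ p, sliceR μ (x p) = a (tgt p) - a (src p)) :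
    ∃ e : A → V ⊗[K] W, (∀ i, e i ∈ tsub (U i) U') ∧ ∀ p, x p = e (tgt p) - e (src p) := by
  classical
  let d : (∀ i, U i) →ₗ[K] (P → V) :=
    { toFun := fun a p => (a (tgt p) : V) - (a (src p) : V)
      map_add' := fun a b => by
        funext p
        simp only [Pi.add_apply, Submodule.coe_add]
        abel
      map_smul' := fun c a => by
        funext p
        simp [smul_sub] }
  obtain ⟨s₀, hs₀⟩ := d.rangeRestrict.exists_rightInverse_of_surjective d.range_rangeRestrict
  obtain ⟨s, hs⟩ := s₀.exists_extend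
  have hds : ∀ y ∈ LinearMap.range d, d (s y) = y := fun y hy => by
    have h1 : s y = s₀ ⟨y, hy⟩ := LinearMap.congr_fun hs ⟨y, hy⟩
    rw [h1]
    exact congrArg Subtype.val (LinearMap.congr_fun hs₀ ⟨y, hy⟩)
  let S : A → P → V →ₗ[K] V := fun i p =>
    (U i).subtype ∘ₗ LinearMap.proj i ∘ₗ s ∘ₗ LinearMap.single K (fun _ => V) p
  let e : A → V ⊗[K] W := fun i => ∑ p, TensorProduct.map (S i p) LinearMap.id (x p)
  have hmap : ∀ (f : V →ₗ[K] V) (μ : W →ₗ[K] K) (y : V ⊗[K] W),
      sliceR μ (TensorProduct.map f LinearMap.id y) = f (sliceR μ y) := fun f μ y => by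
    induction y using TensorProduct.induction_on with
    | zero => simp
    | tmul v w => simp
    | add a b ha hb => simp [map_add, ha, hb]
  have hmapL : ∀ (f : V →ₗ[K] V) (ν : V →ₗ[K] K) (y : V ⊗[K] W),
      sliceL ν (TensorProduct.map f LinearMap.id y) = sliceL (ν ∘ₗ f) y := fun f ν y => by
    induction y using TensorProduct.induction_on with
    | zero => simp
    | tmul v w => simp
    | add a b ha hb => simp [map_add, ha, hb]
  have he : ∀ μ i, sliceR μ (e i) = (s (fun p => sliceR μ (x p)) i : V) := fun μ i => by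
    conv_rhs => rw [show (fun p => sliceR μ (x p)) =
      ∑ p, LinearMap.single K (fun _ => V) p (sliceR μ (x p)) from
      (Finset.univ_sum_single fun p => sliceR μ (x p)).symm, map_sum s, Finset.sum_apply,
      AddSubmonoidClass.coe_finsetSum]
    simp only [e, map_sum, hmap]
    rfl
  refine ⟨e, fun i => mem_tsub_iff.2 ⟨fun μ => ?_, fun ν => ?_⟩, fun p => ext_sliceR fun μ => ?_⟩
  · rw [he]; exact SetLike.coe_mem _
  · simp only [e, map_sum, hmapL]
    exact sum_mem fun p _ => mem_tsub_right.1 (hx p) _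
  · obtain ⟨a, ha, hae⟩ := h μ
    have hr : (fun p => sliceR μ (x p)) ∈ LinearMap.range d :=
      ⟨fun i => ⟨a i, ha i⟩, funext fun p => (hae p).symm⟩
    rw [map_sub, he, he]
    exact (congrFun (hds _ hr) p).symm

end slicewise

end FLTAgent.AbScheme.Cube
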