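import Fermat.Agent.AbScheme.Cube.Defs
import Fermat.Agent.AbScheme.Cube.Tensor

/-!
Boxes as subspaces of a tensor product, sections of a bundle and trivialisations.
-/

set_option autoImplicit false
set_option linter.unusedSectionVars false

noncomputable section

universe u

namespace FLTAgent.AbScheme.Cube

open scoped TensorProduct Matrix

variable {K F G : Type u} [Field K] [Field F] [Algebra K F] [Field G] [Algebra K G]
  {S S' S'' : Type u} [CommRing S] [Algebra K S] [CommRing S'] [Algebra K S'] [CommRing S'']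
  [Algebra K S'']

/-! ### Boxes -/

theorem mem_boxRing {A : Subalgebra K F} {B : Subalgebra K G} {x : Amb K F G S} :
    x ∈ boxRing A B S ↔
      x ∈ tsub (tsub (Subalgebra.toSubmodule A) (Subalgebra.toSubmodule B)) (⊤ : Submodule K S) := by
  constructor
  · rintro ⟨t, rfl⟩
    show Algebra.TensorProduct.map _ (AlgHom.id K S) t ∈ _
    induction t using TensorProduct.induction_on with
    | zero => rw [map_zero]; exact zero_mem _
    | tmul y s =>
      refine tmul_mem_tsub ?_ Submodule.mem_top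
      induction y using TensorProduct.induction_on with
      | zero => rw [map_zero]; exact zero_mem _
      | tmul f g => exact tmul_mem_tsub f.2 g.2
      | add a b ha hb => rw [map_add]; exact add_mem ha hb
    | add a b ha hb => rw [map_add]; exact add_mem ha hb
  · intro hx
    refine tsub_induction (zero_mem _) (fun y hy s _ => ?_) (fun a b => add_mem) hx
    refine tsub_induction (p := fun y => y ⊗ₜ[K] s ∈ boxRing A B S) ?_ (fun f hf g hg => ?_)
      (fun a b ha hb => ?_) hy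
    · rw [TensorProduct.zero_tmul]; exact zero_mem _
    · exact ⟨((⟨f, hf⟩ : A) ⊗ₜ[K] (⟨g, hg⟩ : B)) ⊗ₜ[K] s, rfl⟩
    · rw [TensorProduct.add_tmul]; exact add_mem ha hb

theorem mem_sideRing {A : Subalgebra K F} {x : F ⊗[K] S} :
    x ∈ sideRing A S ↔ x ∈ tsub (Subalgebra.toSubmodule A) (⊤ : Submodule K S) := by
  constructor
  · rintro ⟨t, rfl⟩
    show Algebra.TensorProduct.map _ (AlgHom.id K S) t ∈ _
    induction t using TensorProduct.induction_on with
    | zero => rw [map_zero]; exact zero_mem _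
    | tmul y s => exact tmul_mem_tsub y.2 Submodule.mem_top
    | add a b ha hb => rw [map_add]; exact add_mem ha hb
  · intro hx
    exact tsub_induction (p := fun x => x ∈ sideRing A S) (zero_mem _)
      (fun y hy s _ => ⟨(⟨y, hy⟩ : A) ⊗ₜ[K] s, rfl⟩) (fun a b => add_mem) hx

theorem tmul_mem_boxRing {A : Subalgebra K F} {B : Subalgebra K G} {f : F} (hf : f ∈ A) {g : G}
    (hg : g ∈ B) (s : S) : (f ⊗ₜ[K] g) ⊗ₜ[K] s ∈ boxRing A B S :=
  ⟨((⟨f, hf⟩ : A) ⊗ₜ[K] (⟨g, hg⟩ : B)) ⊗ₜ[K] s, rfl⟩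

theorem boxRing_induction {A : Subalgebra K F} {B : Subalgebra K G} {p : Amb K F G S → Prop}
    (h0 : p 0) (ht : ∀ f ∈ A, ∀ g ∈ B, ∀ s, p ((f ⊗ₜ[K] g) ⊗ₜ[K] s))
    (hadd : ∀ x y, p x → p y → p (x + y)) {x : Amb K F G S} (hx : x ∈ boxRing A B S) : p x := by
  refine tsub_induction h0 (fun y hy s _ => ?_) hadd (mem_boxRing.1 hx)
  refine tsub_induction (p := fun y => p (y ⊗ₜ[K] s)) ?_ (fun f hf g hg => ht f hf g hg s)
    (fun a b ha hb => ?_) hy
  · rw [TensorProduct.zero_tmul]; exact h0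
  · rw [TensorProduct.add_tmul]; exact hadd _ _ ha hb

theorem boxRing_mono {A A' : Subalgebra K F} {B B' : Subalgebra K G} (hA : A ≤ A') (hB : B ≤ B') :
    boxRing A B S ≤ boxRing A' B' S := fun _ hx =>
  boxRing_induction (zero_mem _) (fun _ hf _ hg s => tmul_mem_boxRing (hA hf) (hB hg) s)
    (fun _ _ => add_mem) hx

@[simp] theorem ambMap_tmul (φ : S →ₐ[K] S') (y : F ⊗[K] G) (s : S) :
    ambMap φ (y ⊗ₜ[K] s : Amb K F G S) = y ⊗ₜ[K] φ s := rfl

theorem ambMap_mem {A : Subalgebra K F} {B : Subalgebra K G} (φ : S →ₐ[K] S') {x : Amb K F G S}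
    (hx : x ∈ boxRing A B S) : ambMap φ x ∈ boxRing A B S' :=
  boxRing_induction (p := fun x => ambMap φ x ∈ boxRing A B S') (by rw [map_zero]; exact zero_mem _)
    (fun f hf g hg s => tmul_mem_boxRing hf hg _)
    (fun a b ha hb => by rw [map_add]; exact add_mem ha hb) hx

theorem ambMap_ambMap (φ : S →ₐ[K] S') (ψ : S' →ₐ[K] S'') (x : Amb K F G S) :
    ambMap ψ (ambMap φ x) = ambMap (ψ.comp φ) x := by
  induction x using TensorProduct.induction_on with
  | zero => simp only [map_zero]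
  | tmul y s => rfl
  | add a b ha hb => simp only [map_add, ha, hb]

theorem ambMap_id (x : Amb K F G S) : ambMap (AlgHom.id K S) x = x := by
  induction x using TensorProduct.induction_on with
  | zero => simp only [map_zero]
  | tmul y s => rfl
  | add a b ha hb => simp only [map_add, ha, hb]

theorem exists_lift_boxRing {A : Subalgebra K F} {B : Subalgebra K G} {π : S →ₐ[K] S'}
    (hπ : Function.Surjective π) {x : Amb K F G S'} (hx : x ∈ boxRing A B S') :
    ∃ y ∈ boxRing A B S, ambMap π y = x :=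
  boxRing_induction (p := fun x => ∃ y ∈ boxRing A B S, ambMap π y = x) ⟨0, zero_mem _, map_zero _⟩
    (fun f hf g hg s => by
      obtain ⟨r, rfl⟩ := hπ s
      exact ⟨_, tmul_mem_boxRing hf hg r, rfl⟩)
    (fun a b ⟨a', ha', ha⟩ ⟨b', hb', hb⟩ => ⟨a' + b', add_mem ha' hb',
      by rw [map_add, ha, hb]⟩) hx

theorem exists_functional_one (K V : Type u) [Field K] [CommRing V] [Algebra K V] [Nontrivial V] :
    ∃ ν : V →ₗ[K] K, ν 1 = 1 := by
  obtain ⟨g, hg⟩ := (Algebra.linearMap K V).exists_leftInverse_of_injective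
    (LinearMap.ker_eq_bot.2 (algebraMap K V).injective)
  exact ⟨g, by simpa using LinearMap.congr_fun hg 1⟩

/-- A slice at the unit retracts the parameters. -/
theorem exists_functional_tensor : ∃ ν : F ⊗[K] G →ₗ[K] K, ν 1 = 1 := by
  obtain ⟨a, ha⟩ := exists_functional_one K F
  obtain ⟨b, hb⟩ := exists_functional_one K G
  exact ⟨b ∘ₗ sliceL a, by simp [Algebra.TensorProduct.one_def, ha, hb]⟩

theorem one_tmul_injective : Function.Injective fun s : S => (1 : F ⊗[K] G) ⊗ₜ[K] s := by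
  obtain ⟨ν, hν⟩ := exists_functional_tensor (K := K) (F := F) (G := G)
  intro s t h
  simpa [hν] using congrArg (sliceL ν) h

theorem one_tmul_mem_boxRing {A : Subalgebra K F} {B : Subalgebra K G} (s : S) :
    (1 : F ⊗[K] G) ⊗ₜ[K] s ∈ boxRing A B S :=
  tmul_mem_boxRing A.one_mem B.one_mem s

variable {MX : CoverModel K F} {MY : CoverModel K G}

theorem ring₁_le_ring₂_left (a b : Box MX MY) : ring₁ MX MY a S ≤ ring₂ MX MY a b S :=
  boxRing_mono le_sup_left le_sup_left

theorem ring₁_le_ring₂_right (a b : Box MX MY) : ring₁ MX MY b S ≤ ring₂ MX MY a b S :=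
  boxRing_mono le_sup_right le_sup_right

theorem ring₂_comm (a b : Box MX MY) : ring₂ MX MY a b S = ring₂ MX MY b a S := by
  simp only [ring₂, sup_comm]

/-- A function regular on every box is a parameter. -/
theorem exists_eq_one_tmul {x : Amb K F G S} (hx : ∀ a, x ∈ ring₁ MX MY a S) :
    ∃ s : S, x = (1 : F ⊗[K] G) ⊗ₜ[K] s := by
  have : Nonempty MX.ι := ⟨MX.base⟩
  have : Nonempty MY.ι := ⟨MY.base⟩
  have h1 : ∀ μ, sliceR μ x ∈ tsub (⨅ i, Subalgebra.toSubmodule (MX.C i))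
      (⨅ j, Subalgebra.toSubmodule (MY.C j)) := fun μ =>
    mem_tsub_iInf.2 fun i j => mem_tsub_left.1 (mem_boxRing.1 (hx (i, j))) μ
  have h2 : x ∈ tsub (tsub (⨅ i, Subalgebra.toSubmodule (MX.C i))
      (⨅ j, Subalgebra.toSubmodule (MY.C j))) (⊤ : Submodule K S) := mem_tsub_left.2 h1
  refine tsub_induction (p := fun x => ∃ s : S, x = (1 : F ⊗[K] G) ⊗ₜ[K] s) ⟨0, by simp⟩
    (fun y hy s _ => ?_) (fun a b ⟨s, hs⟩ ⟨t, ht⟩ => ⟨s + t, by rw [hs, ht, TensorProduct.tmul_add]⟩)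
    h2
  refine tsub_induction (p := fun y => ∃ t : S, y ⊗ₜ[K] s = (1 : F ⊗[K] G) ⊗ₜ[K] t) ⟨0, by simp⟩
    (fun f hf g hg => ?_) (fun a b ⟨s₁, h₁⟩ ⟨s₂, h₂⟩ =>
      ⟨s₁ + s₂, by rw [TensorProduct.add_tmul, h₁, h₂, TensorProduct.tmul_add]⟩) hy
  simp only [Submodule.mem_iInf] at hf hg
  obtain ⟨a, rfl⟩ := Algebra.mem_bot.1 (MX.const f hf)
  obtain ⟨b, rfl⟩ := Algebra.mem_bot.1 (MY.const g hg)
  refine ⟨(a * b) • s, ?_⟩
  simp [Algebra.algebraMap_eq_smul_one, Algebra.TensorProduct.one_def, TensorProduct.smul_tmul',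
    TensorProduct.tmul_smul, smul_smul, mul_comm]

/-! ### Sections -/

/-- A rank one projector is the product of a fixed column and a fixed row. -/
theorem rankOne_projector {n : Type*} [Fintype n] {A : Type*} [CommRing A] {T : Matrix n n A}
    (hT : ∀ k k' l l', T k l * T k' l' = T k l' * T k' l) {v w : n → A} (hv : T *ᵥ v = v)
    (hw : w ᵥ* T = w) (k l : n) : v k * w l = T k l * (w ⬝ᵥ v) := by
  have hq : ∀ q, ∑ p, T q p * v p = v q := fun q => congrFun hv q
  calc v k * w l = (∑ p, T k p * v p) * ∑ q, w q * T q l := by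
        rw [hq]; exact congrArg _ (congrFun hw l).symm
    _ = ∑ q, ∑ p, T k l * (w q * (T q p * v p)) := by
        rw [Finset.sum_mul_sum, Finset.sum_comm]
        refine Finset.sum_congr rfl fun q _ => Finset.sum_congr rfl fun p _ => ?_
        rw [show T k p * v p * (w q * T q l) = T k p * T q l * (w q * v p) by ring, hT]
        ring
    _ = T k l * (w ⬝ᵥ v) := by
        simp only [← Finset.mul_sum, hq]
        rfl

variable {R : Type u} [CommRing R] [Algebra K R] (P : Bundle MX MY R)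

/-- Sections after a change of parameters. -/
def IsSect (φ : R →ₐ[K] S) (v : ∀ a, Fin (P.n a) → Amb K F G S) : Prop :=
  (∀ a k, v a k ∈ ring₁ MX MY a S) ∧ ∀ a b, (P.T a b).map (ambMap φ) *ᵥ v a = v b

/-- Sections of the inverse bundle. -/
def IsCosect (φ : R →ₐ[K] S) (w : ∀ a, Fin (P.n a) → Amb K F G S) : Prop :=
  (∀ a k, w a k ∈ ring₁ MX MY a S) ∧ ∀ a b, w b ᵥ* (P.T a b).map (ambMap φ) = w a

/-- The inverse bundle. -/
def Bundle.dual : Bundle MX MY R where
  n := P.n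
  T a b := (P.T b a).transpose
  mem_self a k l := P.mem_self a l k
  mem a b k l := by rw [ring₂_comm]; exact P.mem b a l k
  trans a b c := by rw [← Matrix.transpose_mul, P.trans]
  trace a := by rw [Matrix.trace_transpose, P.trace]
  rankOne a b k k' l l' := by
    simp only [Matrix.transpose_apply]
    rw [P.rankOne b a l l' k k', mul_comm]

variable {P}

theorem isCosect_iff {φ : R →ₐ[K] S} {w : ∀ a, Fin (P.n a) → Amb K F G S} :
    IsCosect P φ w ↔ IsSect P.dual φ w := by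
  constructor <;> rintro ⟨h1, h2⟩ <;> refine ⟨h1, fun a b => funext fun k => ?_⟩ <;>
    refine Eq.trans ?_ (congrFun (h2 b a) k) <;>
    simp only [Matrix.mulVec, Matrix.vecMul, dotProduct] <;>
    exact Finset.sum_congr rfl fun l _ => mul_comm _ _

theorem rankOne_map (φ : R →ₐ[K] S) (a b : Box MX MY) (k k' : Fin (P.n b)) (l l' : Fin (P.n a)) :
    (P.T a b).map (ambMap φ) k l * (P.T a b).map (ambMap φ) k' l' =
      (P.T a b).map (ambMap φ) k l' * (P.T a b).map (ambMap φ) k' l := by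
  simp only [Matrix.map_apply, ← map_mul, P.rankOne]

theorem IsSect.map {φ : R →ₐ[K] S} {v : ∀ a, Fin (P.n a) → Amb K F G S} (hv : IsSect P φ v)
    (ψ : S →ₐ[K] S') {φ' : R →ₐ[K] S'} (h : ψ.comp φ = φ') :
    IsSect P φ' fun a k => ambMap ψ (v a k) := by
  refine ⟨fun a k => ambMap_mem ψ (hv.1 a k), fun a b => funext fun k => ?_⟩
  show _ = ambMap ψ (v b k)
  rw [← hv.2 a b]
  simp only [Matrix.mulVec, dotProduct, map_sum, map_mul, Matrix.map_apply, ambMap_ambMap, h]

theorem IsCosect.map {φ : R →ₐ[K] S} {w : ∀ a, Fin (P.n a) → Amb K F G S} (hw : IsCosect P φ w)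
    (ψ : S →ₐ[K] S') {φ' : R →ₐ[K] S'} (h : ψ.comp φ = φ') :
    IsCosect P φ' fun a k => ambMap ψ (w a k) :=
  isCosect_iff.2 ((isCosect_iff.1 hw).map ψ h)

theorem IsSect.smul {φ : R →ₐ[K] S} {v : ∀ a, Fin (P.n a) → Amb K F G S} (hv : IsSect P φ v)
    (c : S) : IsSect P φ fun a k => (1 : F ⊗[K] G) ⊗ₜ[K] c * v a k := by
  refine ⟨fun a k => mul_mem (one_tmul_mem_boxRing c) (hv.1 a k), fun a b => ?_⟩
  have := Matrix.mulVec_smul ((P.T a b).map (ambMap φ)) ((1 : F ⊗[K] G) ⊗ₜ[K] c) (v a)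
  rw [hv.2 a b] at this
  exact this

/-- The pairing of a section with a section of the inverse is a parameter. -/
theorem exists_pairing {φ : R →ₐ[K] S} {v w : ∀ a, Fin (P.n a) → Amb K F G S}
    (hv : IsSect P φ v) (hw : IsCosect P φ w) :
    ∃ c : S, ∀ a, w a ⬝ᵥ v a = (1 : F ⊗[K] G) ⊗ₜ[K] c := by
  have hcst : ∀ a b, w a ⬝ᵥ v a = w b ⬝ᵥ v b := fun a b => by
    rw [← hw.2 a b, ← hv.2 a b, Matrix.dotProduct_mulVec]
  obtain ⟨c, hc⟩ := exists_eq_one_tmul (x := w (MX.base, MY.base) ⬝ᵥ v (MX.base, MY.base))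
    fun a => by
      rw [hcst _ a]
      exact sum_mem fun k _ => mul_mem (hw.1 a k) (hv.1 a k)
  exact ⟨c, fun a => (hcst a _).trans hc⟩

theorem Triv.isSect {φ : R →ₐ[K] S} (t : Triv P φ) : IsSect P φ t.v := ⟨t.v_mem, t.v_rel⟩

theorem Triv.isCosect {φ : R →ₐ[K] S} (t : Triv P φ) : IsCosect P φ t.w := ⟨t.w_mem, t.w_rel⟩

/-- A pair of sections with unit pairing trivialises. -/
theorem nonempty_triv {φ : R →ₐ[K] S} {v w : ∀ a, Fin (P.n a) → Amb K F G S}
    (hv : IsSect P φ v) (hw : IsCosect P φ w) {c : S} (hc : IsUnit c)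
    (h : ∀ a, w a ⬝ᵥ v a = (1 : F ⊗[K] G) ⊗ₜ[K] c) : Nonempty (Triv P φ) := by
  obtain ⟨c, rfl⟩ := hc
  have hv' := hv.smul ((c⁻¹ : Sˣ) : S)
  refine ⟨⟨fun a k => _, w, hv'.1, hw.1, hv'.2, hw.2, fun a => ?_⟩⟩
  show ∑ k, w a k * ((1 : F ⊗[K] G) ⊗ₜ[K] ((c⁻¹ : Sˣ) : S) * v a k) = 1
  simp_rw [mul_left_comm (w a _)]
  rw [← Finset.mul_sum, show ∑ k, w a k * v a k = _ from h a, Algebra.TensorProduct.tmul_mul_tmul,
    one_mul, Units.inv_mul, Algebra.TensorProduct.one_def]
  rfl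

theorem Triv.nonempty_map {φ : R →ₐ[K] S} (t : Triv P φ) (ψ : S →ₐ[K] S') {φ' : R →ₐ[K] S'}
    (h : ψ.comp φ = φ') : Nonempty (Triv P φ') :=
  ⟨⟨_, _, (t.isSect.map ψ h).1, (t.isCosect.map ψ h).1, (t.isSect.map ψ h).2,
    (t.isCosect.map ψ h).2, fun a => by
      rw [← map_one (ambMap ψ), ← t.one a]
      simp only [dotProduct, map_sum, map_mul]⟩⟩

/-- The projector of a box is the product of the trivialising sections. -/
theorem Triv.proj {φ : R →ₐ[K] S} (t : Triv P φ) (a : Box MX MY) (k l : Fin (P.n a)) :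
    t.v a k * t.w a l = (P.T a a).map (ambMap φ) k l := by
  rw [rankOne_projector (rankOne_map φ a a) (t.v_rel a a) (t.w_rel a a), t.one, mul_one]

/-- Two trivialisations differ by a unit of the parameters. -/
theorem Triv.exists_unit_aux {φ : R →ₐ[K] S} (t t' : Triv P φ) :
    ∃ c : Sˣ, ∀ a k, t'.v a k = (1 : F ⊗[K] G) ⊗ₜ[K] (c : S) * t.v a k := by
  obtain ⟨c, hc⟩ := exists_pairing t'.isSect t.isCosect
  obtain ⟨c', hc'⟩ := exists_pairing t.isSect t'.isCosect
  have key : ∀ (t t' : Triv P φ) a k, t'.v a k = (t.w a ⬝ᵥ t'.v a) * t.v a k := fun t t' a k => by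
    conv_lhs => rw [← t'.v_rel a a]
    simp only [Matrix.mulVec, dotProduct, Finset.sum_mul, ← Triv.proj t]
    exact Finset.sum_congr rfl fun l _ => by ring
  have h1 : c' * c = 1 := by
    refine one_tmul_injective (K := K) (F := F) (G := G) ?_
    let a : Box MX MY := (MX.base, MY.base)
    have e : t.w a ⬝ᵥ t.v a = t.w a ⬝ᵥ fun k =>
        ((1 : F ⊗[K] G) ⊗ₜ[K] c' * (1 : F ⊗[K] G) ⊗ₜ[K] c) * t.v a k := by
      congr 1
      funext k
      rw [mul_assoc, ← hc, ← key, ← hc', ← key]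
    rw [t.one] at e
    simp only [dotProduct, mul_left_comm (t.w a _)] at e
    rw [← Finset.mul_sum, show ∑ k, t.w a k * t.v a k = 1 from t.one a, mul_one,
      Algebra.TensorProduct.tmul_mul_tmul, one_mul] at e
    exact e.symm.trans (by rfl)
  exact ⟨⟨c, c', by rw [mul_comm, h1], h1⟩, fun a k => by rw [key t t', hc a]⟩

end FLTAgent.AbScheme.Cube
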