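import Fermat.Agent.AbScheme.Cube.Basic

/-!
The faces of a bundle on a product, and the exchange of the two factors.
-/

set_option autoImplicit false
set_option linter.unusedSectionVars false

noncomputable section

universe u

namespace FLTAgent.AbScheme.Cube

open scoped TensorProduct Matrix

variable {K F G : Type u} [Field K] [Field F] [Algebra K F] [Field G] [Algebra K G]
  {S S' : Type u} [CommRing S] [Algebra K S] [CommRing S'] [Algebra K S']

/-- A functional extending the evaluation at a point. -/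
theorem exists_functional_ev {A : Subalgebra K F} (ev : A →ₐ[K] K) :
    ∃ l : F →ₗ[K] K, l 1 = 1 ∧ ∀ a : A, l a = ev a := by
  obtain ⟨l, hl⟩ := LinearMap.exists_extend (p := Subalgebra.toSubmodule A) ev.toLinearMap
  have h : ∀ a : A, l a = ev a := fun a => LinearMap.congr_fun hl a
  exact ⟨l, (h 1).trans (map_one ev), h⟩

/-- Evaluation of the second factor. -/
def evY (l : G →ₗ[K] K) : Amb K F G S →ₗ[K] F ⊗[K] S :=
  TensorProduct.map (sliceR l) LinearMap.id

@[simp] theorem evY_tmul (l : G →ₗ[K] K) (f : F) (g : G) (s : S) :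
    evY l ((f ⊗ₜ[K] g) ⊗ₜ[K] s : Amb K F G S) = (l g • f) ⊗ₜ[K] s := by
  simp [evY]

/-- Change of parameters on a factor. -/
def sideMap (φ : S →ₐ[K] S') : F ⊗[K] S →ₐ[K] F ⊗[K] S' :=
  Algebra.TensorProduct.map (AlgHom.id K F) φ

@[simp] theorem sideMap_tmul (φ : S →ₐ[K] S') (f : F) (s : S) :
    sideMap φ (f ⊗ₜ[K] s) = f ⊗ₜ[K] φ s := rfl

theorem evY_ambMap (l : G →ₗ[K] K) (φ : S →ₐ[K] S') (x : Amb K F G S) :
    evY l (ambMap φ x) = sideMap φ (evY l x) := by
  induction x using TensorProduct.induction_on with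
  | zero => simp
  | tmul y s =>
    induction y using TensorProduct.induction_on with
    | zero => simp
    | tmul f g => simp
    | add a b ha hb => simp only [TensorProduct.add_tmul, map_add, ha, hb]
  | add a b ha hb => simp only [map_add, ha, hb]

theorem sliceR_evY (l : G →ₗ[K] K) (μ : S →ₗ[K] K) (x : Amb K F G S) :
    sliceR μ (evY l x) = sliceR l (sliceR μ x) := by
  induction x using TensorProduct.induction_on with
  | zero => simp
  | tmul y s => simp [evY]
  | add a b ha hb => simp only [map_add, ha, hb]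

theorem evY_mem {A : Subalgebra K F} {B : Subalgebra K G} (l : G →ₗ[K] K) {x : Amb K F G S}
    (hx : x ∈ boxRing A B S) : evY l x ∈ sideRing A S :=
  boxRing_induction (p := fun x => evY l x ∈ sideRing A S) (by rw [map_zero]; exact zero_mem _)
    (fun f hf g _ s => mem_sideRing.2 (by
      rw [evY_tmul]; exact tmul_mem_tsub (A.smul_mem hf _) Submodule.mem_top))
    (fun a b ha hb => by rw [map_add]; exact add_mem ha hb) hx

theorem evY_mul {B : Subalgebra K G} {l : G →ₗ[K] K} {ev : B →ₐ[K] K} (hl : ∀ g : B, l g = ev g)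
    {A A' : Subalgebra K F} {x y : Amb K F G S} (hx : x ∈ boxRing A B S)
    (hy : y ∈ boxRing A' B S) : evY l (x * y) = evY l x * evY l y :=
  boxRing_induction (p := fun x => evY l (x * y) = evY l x * evY l y) (by simp)
    (fun f _ g hg s => boxRing_induction
      (p := fun y => evY l ((f ⊗ₜ[K] g) ⊗ₜ[K] s * y) = evY l ((f ⊗ₜ[K] g) ⊗ₜ[K] s) * evY l y)
      (by simp)
      (fun f' _ g' hg' s' => by
        have h : l (g * g') = l g * l g' := by
          rw [hl ⟨g, hg⟩, hl ⟨g', hg'⟩, ← map_mul]
          exact hl ⟨g * g', mul_mem hg hg'⟩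
        simp only [Algebra.TensorProduct.tmul_mul_tmul, evY_tmul, h, smul_mul_smul_comm])
      (fun a b ha hb => by simp only [mul_add, map_add, ha, hb]) hy)
    (fun a b ha hb => by simp only [add_mul, map_add, ha, hb]) hx

theorem sideRing_mono {A A' : Subalgebra K F} (h : A ≤ A') : sideRing A S ≤ sideRing A' S :=
  fun _ hx => mem_sideRing.2 (tsub_mono h le_rfl (mem_sideRing.1 hx))

theorem sideMap_mem {A : Subalgebra K F} (φ : S →ₐ[K] S') {x : F ⊗[K] S}
    (hx : x ∈ sideRing A S) : sideMap φ x ∈ sideRing A S' :=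
  tsub_induction (p := fun x => sideMap φ x ∈ sideRing A S') (by rw [map_zero]; exact zero_mem _)
    (fun f hf s _ => mem_sideRing.2 (tmul_mem_tsub hf Submodule.mem_top))
    (fun a b ha hb => by rw [map_add]; exact add_mem ha hb) (mem_sideRing.1 hx)

variable {MX : CoverModel K F} {MY : CoverModel K G}

theorem exists_eq_one_tmul_side {x : F ⊗[K] S} (hx : ∀ i, x ∈ sideRing (MX.C i) S) :
    ∃ s : S, x = (1 : F) ⊗ₜ[K] s := by
  have : Nonempty MX.ι := ⟨MX.base⟩
  have h2 : x ∈ tsub (⨅ i, Subalgebra.toSubmodule (MX.C i)) (⊤ : Submodule K S) :=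
    mem_tsub_left.2 fun μ => (Submodule.mem_iInf _).2 fun i =>
      mem_tsub_left.1 (mem_sideRing.1 (hx i)) μ
  refine tsub_induction (p := fun x => ∃ s : S, x = (1 : F) ⊗ₜ[K] s) ⟨0, by simp⟩
    (fun f hf s _ => ?_) (fun a b ⟨s, hs⟩ ⟨t, ht⟩ => ⟨s + t, by rw [hs, ht, TensorProduct.tmul_add]⟩)
    h2
  simp only [Submodule.mem_iInf] at hf
  obtain ⟨a, rfl⟩ := Algebra.mem_bot.1 (MX.const f hf)
  exact ⟨a • s, by simp [Algebra.algebraMap_eq_smul_one, TensorProduct.smul_tmul]⟩

variable {R : Type u} [CommRing R] [Algebra K R] (P : Bundle MX MY R)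

/-- The bundle is trivial on the face cut out by a functional. -/
def FaceAt (l : G →ₗ[K] K) : Prop :=
  ∃ v w : ∀ i, Fin (P.n (i, MY.base)) → F ⊗[K] R,
    (∀ i k, v i k ∈ sideRing (MX.C i) R ∧ w i k ∈ sideRing (MX.C i) R) ∧
    (∀ i j, (P.T (i, MY.base) (j, MY.base)).map (evY l) *ᵥ v i = v j ∧
      w j ᵥ* (P.T (i, MY.base) (j, MY.base)).map (evY l) = w i) ∧ ∀ i, w i ⬝ᵥ v i = 1

/-- The exchange of the two factors on the ambient ring. -/
def swapA : Amb K F G S →ₐ[K] Amb K G F S :=
  Algebra.TensorProduct.map (Algebra.TensorProduct.comm K F G).toAlgHom (AlgHom.id K S)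

@[simp] theorem swapA_tmul (f : F) (g : G) (s : S) :
    swapA ((f ⊗ₜ[K] g) ⊗ₜ[K] s : Amb K F G S) = (g ⊗ₜ[K] f) ⊗ₜ[K] s := rfl

theorem swapA_mem {A : Subalgebra K F} {B : Subalgebra K G} {x : Amb K F G S}
    (hx : x ∈ boxRing A B S) : swapA x ∈ boxRing B A S :=
  boxRing_induction (p := fun x => swapA x ∈ boxRing B A S) (by rw [map_zero]; exact zero_mem _)
    (fun f hf g hg s => tmul_mem_boxRing hg hf s)
    (fun a b ha hb => by rw [map_add]; exact add_mem ha hb) hx

theorem swapA_ambMap (φ : S →ₐ[K] S') (x : Amb K F G S) :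
    swapA (ambMap φ x) = ambMap φ (swapA x) := by
  induction x using TensorProduct.induction_on with
  | zero => simp only [map_zero]
  | tmul y s => rfl
  | add a b ha hb => simp only [map_add, ha, hb]

theorem sliceR_swapA (l : F →ₗ[K] K) (μ : S →ₗ[K] K) (x : Amb K F G S) :
    sliceR l (sliceR μ (swapA x)) = sliceL l (sliceR μ x) := by
  induction x using TensorProduct.induction_on with
  | zero => simp
  | tmul y s =>
    induction y using TensorProduct.induction_on with
    | zero => simp
    | tmul f g => simp [smul_smul, mul_comm]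
    | add a b ha hb => simp only [TensorProduct.add_tmul, map_add, ha, hb]
  | add a b ha hb => simp only [map_add, ha, hb]

/-- The bundle with the two factors exchanged. -/
def Bundle.swap : Bundle MY MX R where
  n a := P.n (a.2, a.1)
  T a b := (P.T (a.2, a.1) (b.2, b.1)).map swapA
  mem_self a k l := swapA_mem (P.mem_self (a.2, a.1) k l)
  mem a b k l := swapA_mem (P.mem (a.2, a.1) (b.2, b.1) k l)
  trans a b c := by rw [← Matrix.map_mul, P.trans]
  trace a := by
    rw [← map_one (swapA (K := K) (F := F) (G := G) (S := R)), ← P.trace (a.2, a.1)]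
    exact (map_sum swapA _ _).symm
  rankOne a b k k' l l' := by simp only [Matrix.map_apply, ← map_mul, P.rankOne]

variable {P}

/-- The exchanged trivialisation. -/
def Triv.swap {φ : R →ₐ[K] S} (t : Triv P φ) : Triv P.swap φ := by
  refine ⟨fun a k => swapA (t.v (a.2, a.1) k), fun a k => swapA (t.w (a.2, a.1) k),
    fun a k => swapA_mem (t.v_mem _ k), fun a k => swapA_mem (t.w_mem _ k),
    fun a b => funext fun k => ?_, fun a b => funext fun k => ?_, fun a => ?_⟩
  · show _ = swapA (t.v (b.2, b.1) k)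
    rw [← t.v_rel (a.2, a.1) (b.2, b.1)]
    simp only [Matrix.mulVec, dotProduct]
    refine Eq.trans ?_ (map_sum swapA _ _).symm
    refine Finset.sum_congr rfl fun x _ => Eq.trans ?_ (map_mul swapA _ _).symm
    exact congrArg (· * _) (swapA_ambMap φ _).symm
  · show _ = swapA (t.w (a.2, a.1) k)
    rw [← t.w_rel (a.2, a.1) (b.2, b.1)]
    simp only [Matrix.vecMul, dotProduct]
    refine Eq.trans ?_ (map_sum swapA _ _).symm
    refine Finset.sum_congr rfl fun x _ => Eq.trans ?_ (map_mul swapA _ _).symm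
    exact congrArg (_ * ·) (swapA_ambMap φ _).symm
  · rw [← map_one (swapA (K := K) (F := F) (G := G) (S := S)), ← t.one (a.2, a.1)]
    simp only [dotProduct, map_sum, map_mul]
    rfl

/-- The trivialisation of the inverse bundle. -/
def Triv.dual {φ : R →ₐ[K] S} (t : Triv P φ) : Triv P.dual φ :=
  ⟨t.w, t.v, t.w_mem, t.v_mem, (isCosect_iff.1 t.isCosect).2,
    ((isCosect_iff (P := P.dual)).2 (show IsSect P.dual.dual φ t.v from t.isSect)).2,
    fun a => (dotProduct_comm _ _).trans (t.one a)⟩

theorem FaceAt.dual {l : G →ₗ[K] K} (h : FaceAt P l) : FaceAt P.dual l := by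
  obtain ⟨v, w, hm, hr, h1⟩ := h
  refine ⟨w, v, fun i k => (hm i k).symm, fun i j => ⟨?_, ?_⟩,
    fun i => (dotProduct_comm _ _).trans (h1 i)⟩
  · rw [← (hr j i).2]
    exact (Matrix.mulVec_transpose _ _)
  · rw [← (hr j i).1]
    exact (Matrix.vecMul_transpose _ _)

theorem FaceAt.dual_swap {l : F →ₗ[K] K} (h : FaceAt P.swap l) : FaceAt P.dual.swap l :=
  h.dual

theorem faceAt_of_faceY {l : G →ₗ[K] K} (hl : ∀ g : MY.C MY.base, l g = MY.ev g) (h : FaceY P) :
    FaceAt P l := by
  obtain ⟨v, w, T', hT, hm, hr, h1⟩ := h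
  have e : ∀ i j, (P.T (i, MY.base) (j, MY.base)).map (evY l) = T' i j := fun i j =>
    Matrix.ext fun k k' => by
      obtain ⟨t, ht, ht'⟩ := hT i j k k'
      rw [Matrix.map_apply, ← ht, ← ht']
      clear ht ht'
      induction t using TensorProduct.induction_on with
      | zero => simp
      | tmul y s =>
        induction y using TensorProduct.induction_on with
        | zero => simp
        | tmul f g => simp [hl g]
        | add a b ha hb => simp only [TensorProduct.add_tmul, map_add, ha, hb]
      | add a b ha hb => simp only [map_add, ha, hb]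
  exact ⟨v, w, hm, fun i j => by rw [e]; exact hr i j, h1⟩

theorem faceAt_swap_of_faceX {l : F →ₗ[K] K} (hl : ∀ f : MX.C MX.base, l f = MX.ev f)
    (h : FaceX P) : FaceAt P.swap l := by
  obtain ⟨v, w, T', hT, hm, hr, h1⟩ := h
  have e : ∀ i j, (P.swap.T (i, MX.base) (j, MX.base)).map (evY l) = T' i j := fun i j =>
    Matrix.ext fun k k' => by
      obtain ⟨t, ht, ht'⟩ := hT i j k k'
      show evY l (swapA (P.T (MX.base, i) (MX.base, j) k k')) = _
      rw [← ht, ← ht']
      clear ht ht'
      induction t using TensorProduct.induction_on with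
      | zero => simp
      | tmul y s =>
        induction y using TensorProduct.induction_on with
        | zero => simp
        | tmul f g => simp [hl f]
        | add a b ha hb => simp only [TensorProduct.add_tmul, map_add, ha, hb]
      | add a b ha hb => simp only [map_add, ha, hb]
  exact ⟨v, w, hm, fun i j => by rw [e]; exact hr i j, h1⟩

end FLTAgent.AbScheme.Cube
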